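import Fermat.Agent.CarayolSquare.Cusps.PosSeries
import Fermat.Agent.CarayolSquare.Geometry.Twist
import Mathlib.RingTheory.Polynomial.Cyclotomic.Eval
import Mathlib.FieldTheory.IntermediateField.Adjoin.Basic

/-!
# The field `K (ζ)` of coefficients

`1 - ξ` is a uniformiser of `K (ζ)` (`exists_eq_mul_of_lt_one`), and elements fixed by all
conjugations lie in `K` (`mem_K_of_fixed`).  Used for the expansions at cusps.
-/

set_option autoImplicit false

noncomputable section

open Polynomial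

namespace FLTAgent.CarayolSquare

local notation "Qbar" => AlgebraicClosure ℚ

variable {q : ℕ}

theorem valuation_sum_le_of_distinct {L : Type*} [Field L] (A : ValuationSubring L) {ι : Type*}
    (s : Finset ι) (f : ι → L)
    (h : ∀ i ∈ s, ∀ j ∈ s, f i ≠ 0 → A.valuation (f i) = A.valuation (f j) → i = j) :
    ∀ i ∈ s, A.valuation (f i) ≤ A.valuation (∑ l ∈ s, f l) := by
  classical
  intro i hi
  obtain ⟨j, hj, hmax⟩ := s.exists_max_image (fun l => A.valuation (f l)) ⟨i, hi⟩
  refine (hmax i hi).trans ?_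
  rcases eq_or_ne (f j) 0 with h0 | h0
  · rw [h0, map_zero]; exact zero_le
  refine le_of_eq (Valuation.map_sum_eq_of_lt _ hj fun l hl => ?_).symm
  obtain ⟨hls, hlj⟩ := Finset.mem_sdiff.mp hl
  refine lt_of_le_of_ne (hmax l hls) fun heq => hlj (Finset.mem_singleton.mpr ?_)
  exact (h j hj l hls h0 heq.symm).symm

namespace Ctx

variable (X : Ctx q)

/-- A monic equation for `1 - ξ`. -/
theorem exists_equation {ξ : Qbar} (hξ : IsPrimitiveRoot ξ q) :
    ∃ P : X.O[X], P ≠ 0 ∧ P.natDegree ≤ q - 1 ∧ P.coeff 0 = (q : X.O) ∧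
      aeval (1 - ξ) (P.map (algebraMap X.O X.K)) = 0 := by
  have : Fact q.Prime := ⟨X.prime⟩
  refine ⟨(cyclotomic q X.O).comp (1 - Polynomial.X), ?_, ?_, ?_, ?_⟩
  · intro h
    have h1 := congrArg (Polynomial.eval 0) h
    rw [eval_comp, eval_sub, eval_one, eval_X, sub_zero, eval_one_cyclotomic_prime, eval_zero] at h1
    exact X.irreducible_q.ne_zero h1
  · refine natDegree_comp_le.trans ?_
    have h1 : (1 - Polynomial.X : X.O[X]).natDegree ≤ 1 := by
      refine (natDegree_sub_le _ _).trans ?_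
      rw [natDegree_one]
      exact max_le zero_le natDegree_X_le
    calc _ ≤ (cyclotomic q X.O).natDegree * 1 := Nat.mul_le_mul_left _ h1
      _ = q - 1 := by rw [mul_one, natDegree_cyclotomic, Nat.totient_prime X.prime]
  · rw [coeff_zero_eq_eval_zero, eval_comp, eval_sub, eval_one, eval_X, sub_zero,
      eval_one_cyclotomic_prime]
  · rw [map_comp, map_cyclotomic, Polynomial.map_sub, Polynomial.map_one, map_X, aeval_comp,
      map_sub, map_one, aeval_X, sub_sub_cancel, aeval_def, eval₂_eq_eval_map, map_cyclotomic]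
    exact hξ.isRoot_cyclotomic X.prime.pos

theorem one_sub_ne_zero (X : Ctx q) {ξ : Qbar} (hξ : IsPrimitiveRoot ξ q) : (1 : Qbar) - ξ ≠ 0 :=
  sub_ne_zero.mpr (hξ.ne_one X.prime.one_lt).symm

theorem valuation_q_pow {ξ : Qbar} (hξ : IsPrimitiveRoot ξ q) :
    X.A.valuation (q : Qbar) = X.A.valuation (1 - ξ) ^ (q - 1) := by
  have := X.neZero
  rw [X.valuation_q_eq rfl hξ, hξ.card_primitiveRoots, Nat.totient_prime X.prime]

theorem valuation_one_sub_lt {ξ : Qbar} (hξ : IsPrimitiveRoot ξ q) :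
    X.A.valuation (1 - ξ) < 1 := by
  by_contra h
  push Not at h
  have h1 := X.valuation_q_pow hξ
  exact absurd (h1 ▸ one_le_pow₀ h : 1 ≤ X.A.valuation (q : Qbar)) (not_le.mpr X.q_lt_one)

theorem mem_L₁_adjoin {ξ : Qbar} (hξ : IsPrimitiveRoot ξ q) {a : Qbar} (ha : a ∈ X.L₁) :
    a ∈ IntermediateField.adjoin X.K ({1 - ξ} : Set Qbar) := by
  have hξm : ξ ∈ IntermediateField.adjoin X.K ({1 - ξ} : Set Qbar) := by
    have := sub_mem (one_mem _) (IntermediateField.mem_adjoin_simple_self X.K (1 - ξ))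
    rwa [sub_sub_cancel] at this
  refine (IntermediateField.adjoin_simple_le_iff.mpr ?_ : X.L₁ ≤ _) ha
  have := X.neZero
  obtain ⟨i, -, hi⟩ := hξ.eq_pow_of_pow_eq_one X.hζ.pow_eq_one
  rw [← hi]
  exact pow_mem hξm i

/-- Integral elements of `K (ζ)` of positive value are multiples of `1 - ξ`. -/
theorem exists_eq_mul_of_lt_one {ξ : Qbar} (hξ : IsPrimitiveRoot ξ q) {a : Qbar} (ha : a ∈ X.L₁)
    (hlt : X.A.valuation a < 1) :
    ∃ Q : X.O[X], a = (1 - ξ) * aeval (1 - ξ) (Q.map (algebraMap X.O X.K)) := by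
  classical
  have := X.dvr
  set π : Qbar := 1 - ξ with hπ
  have hπ0 : π ≠ 0 := X.one_sub_ne_zero hξ
  have hvπ : 0 < X.A.valuation π := X.A.valuation.pos_iff.mpr hπ0
  have hπ1 := X.valuation_one_sub_lt hξ
  obtain ⟨G, hG0, hGd, hGc, hGπ⟩ := X.exists_equation hξ
  have hinj : Function.Injective (algebraMap X.O X.K) := fun _ _ h => Subtype.ext h
  have hint : IsIntegral X.K π := IsIntegral.tower_top (R := ℚ) (isIntegral_Qbar π)
  -- a polynomial of small degree
  obtain ⟨P, hPd, hPa⟩ : ∃ P : X.K[X], P.natDegree < q - 1 ∧ a = aeval π P := by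
    have h1 := X.mem_L₁_adjoin hξ ha
    rw [← IntermediateField.mem_toSubalgebra,
      IntermediateField.adjoin_simple_toSubalgebra_of_isAlgebraic hint.isAlgebraic,
      Algebra.adjoin_singleton_eq_range_aeval] at h1
    obtain ⟨P, hP⟩ := h1
    refine ⟨P %ₘ minpoly X.K π, ?_, ?_⟩
    · refine lt_of_lt_of_le (natDegree_modByMonic_lt P (minpoly.monic hint) (minpoly.ne_one X.K π))
        ?_
      refine (natDegree_le_of_dvd (minpoly.dvd X.K π hGπ) ?_).trans (natDegree_map_le.trans hGd)
      exact (Polynomial.map_ne_zero_iff hinj).mpr hG0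
    · rw [← hP]
      show aeval π P = _
      conv_lhs => rw [← modByMonic_add_div P (minpoly X.K π)]
      rw [map_add, map_mul, minpoly.aeval, zero_mul, add_zero]
  set f : ℕ → Qbar := fun i => algebraMap X.K Qbar (P.coeff i) * π ^ i with hf
  have hsum : a = ∑ i ∈ Finset.range (q - 1), f i := by
    rw [hPa, aeval_eq_sum_range' hPd]
    simp only [hf, Algebra.smul_def]
  have hexp : ∀ i, P.coeff i ≠ 0 → ∃ x y : ℕ,
      X.A.valuation (f i) * X.A.valuation π ^ ((q - 1) * x) =
        X.A.valuation π ^ ((q - 1) * y + i) ∧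
      X.A.valuation (algebraMap X.K Qbar (P.coeff i)) * X.A.valuation (q : Qbar) ^ x =
        X.A.valuation (q : Qbar) ^ y := by
    intro i hi
    obtain ⟨x, y, hxy⟩ := X.exists_valuation_eq_pow _ hi
    refine ⟨x, y, ?_, hxy⟩
    rw [X.valuation_q_pow hξ, ← pow_mul, ← pow_mul] at hxy
    rw [hf, map_mul, map_pow, mul_right_comm, hxy, ← pow_add]
  have hdist : ∀ i ∈ Finset.range (q - 1), ∀ j ∈ Finset.range (q - 1), f i ≠ 0 →
      X.A.valuation (f i) = X.A.valuation (f j) → i = j := by
    intro i hi j hj hfi heq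
    have hfj : f j ≠ 0 := fun h => hfi (by rw [h, map_zero] at heq; exact (map_eq_zero _).mp heq)
    obtain ⟨x, y, hx, -⟩ := hexp i fun h => hfi (by simp [hf, h])
    obtain ⟨x', y', hx', -⟩ := hexp j fun h => hfj (by simp [hf, h])
    have h1 : X.A.valuation π ^ ((q - 1) * y + i + (q - 1) * x') =
        X.A.valuation π ^ ((q - 1) * y' + j + (q - 1) * x) := by
      rw [pow_add (X.A.valuation π) ((q - 1) * y + i), pow_add (X.A.valuation π) ((q - 1) * y' + j),
        ← hx, ← hx', heq]
      exact mul_right_comm _ _ _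
    have h2 := pow_right_injective₀ hvπ hπ1.ne h1
    have h3 : i % (q - 1) = j % (q - 1) := by
      have e1 : ((q - 1) * y + i + (q - 1) * x') % (q - 1) = i % (q - 1) := by
        rw [show (q - 1) * y + i + (q - 1) * x' = i + (q - 1) * (y + x') by ring,
          Nat.add_mul_mod_self_left]
      have e2 : ((q - 1) * y' + j + (q - 1) * x) % (q - 1) = j % (q - 1) := by
        rw [show (q - 1) * y' + j + (q - 1) * x = j + (q - 1) * (y' + x) by ring,
          Nat.add_mul_mod_self_left]
      rw [← e1, h2, e2]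
    rwa [Nat.mod_eq_of_lt (Finset.mem_range.mp hi), Nat.mod_eq_of_lt (Finset.mem_range.mp hj)] at h3
  have hle : ∀ i ∈ Finset.range (q - 1), X.A.valuation (f i) < 1 := fun i hi =>
    lt_of_le_of_lt (hsum ▸ valuation_sum_le_of_distinct X.A _ f hdist i hi) hlt
  have hO : ∀ i ∈ Finset.range (q - 1), ∃ c : X.O, (c : X.K) = P.coeff i ∧
      (i = 0 → (q : X.O) ∣ c) := by
    intro i hi
    rcases eq_or_ne (P.coeff i) 0 with h0 | h0
    · exact ⟨0, by rw [h0]; rfl, fun _ => dvd_zero _⟩
    obtain ⟨x, y, hx, hxy⟩ := hexp i h0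
    have hlt' := hle i hi
    have hgt : (q - 1) * x < (q - 1) * y + i := by
      by_contra hcon
      push Not at hcon
      have h1 : X.A.valuation (f i) * X.A.valuation π ^ ((q - 1) * x) <
          X.A.valuation π ^ ((q - 1) * x) :=
        mul_lt_of_lt_one_left (pow_pos hvπ _) hlt'
      rw [hx] at h1
      exact absurd (pow_le_pow_right_of_le_one' hπ1.le hcon) (not_le.mpr h1)
    have hi' := Finset.mem_range.mp hi
    have hxy' : x ≤ y := by
      by_contra hcon
      push Not at hcon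
      have : (q - 1) * (y + 1) ≤ (q - 1) * x := Nat.mul_le_mul_left _ hcon
      rw [mul_add, mul_one] at this
      omega
    have hv1 : X.A.valuation (algebraMap X.K Qbar (P.coeff i)) =
        X.A.valuation (q : Qbar) ^ (y - x) := by
      refine mul_right_cancel₀ (pow_ne_zero x X.v_q_pos.ne') ?_
      rw [hxy, ← pow_add, Nat.sub_add_cancel hxy']
    refine ⟨⟨P.coeff i, (X.A.valuation_le_one_iff _).mp
      (hv1 ▸ pow_le_one₀ zero_le X.q_lt_one.le)⟩, rfl, fun hi0 => ?_⟩
    rw [← X.fixedData_π, ← X.fixedData.lt_one_iff, X.fixedData_A]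
    show X.A.valuation (algebraMap X.K Qbar (P.coeff i)) < 1
    rw [hv1]
    subst hi0
    refine pow_lt_one₀ zero_le X.q_lt_one ?_
    intro h
    have : x = y := by omega
    subst this
    omega
  choose! c hc hc0 using hO
  rcases Nat.eq_zero_or_pos (q - 1) with h | h
  · exact absurd h (by have := X.prime.two_le; omega)
  obtain ⟨o, ho⟩ := hc0 0 (Finset.mem_range.mpr h) rfl
  -- `q = -π G₁ (π)`
  have hq : (q : Qbar) = π * aeval π ((-G.divX).map (algebraMap X.O X.K)) := by
    have h1 := hGπ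
    rw [← divX_mul_X_add G, hGc] at h1
    simp only [Polynomial.map_add, Polynomial.map_mul, Polynomial.map_natCast, map_X, map_add,
      map_mul, aeval_X, map_natCast] at h1
    rw [Polynomial.map_neg, map_neg]
    linear_combination h1
  refine ⟨Polynomial.C o * (-G.divX) +
    ∑ i ∈ Finset.range (q - 2), Polynomial.C (c (i + 1)) * Polynomial.X ^ i, ?_⟩
  have hsplit : q - 1 = (q - 2) + 1 := by omega
  rw [hsum, hsplit, Finset.sum_range_succ']
  simp only [hf, Polynomial.map_add, Polynomial.map_mul, Polynomial.map_sum, Polynomial.map_pow,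
    map_C, map_X, map_add, map_mul, map_sum, map_pow, aeval_C, aeval_X, pow_zero, mul_one, mul_add,
    Finset.mul_sum]
  rw [add_comm]
  congr 1
  · rw [mul_left_comm, ← hq, ← hc 0 (Finset.mem_range.mpr h), ho]
    show algebraMap X.K Qbar (((q : X.O) * o : X.O) : X.K) = algebraMap X.K Qbar (o : X.K) * _
    rw [Subring.coe_mul, map_mul, mul_comm]
    congr 1
  · refine Finset.sum_congr rfl fun i hi => ?_
    rw [← hc (i + 1) (Finset.mem_range.mpr (by have := Finset.mem_range.mp hi; omega)),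
      mul_left_comm, ← pow_succ']
    rfl

/-- Elements of `K (ζ)` fixed by all `sigma a` lie in `K`. -/
theorem mem_K_of_fixed [NeZero q] {a : Qbar} (ha : a ∈ X.L₁)
    (h : ∀ e : (ZMod q)ˣ, X.sigma e a = a) : a ∈ Set.range (algebraMap X.K Qbar) := by
  have : Fact q.Prime := ⟨X.prime⟩
  refine X.fixedData.fixed a fun σ hσ => ?_
  have hσζ : IsPrimitiveRoot (σ X.ζ) q := X.hζ.map_of_injective σ.injective
  obtain ⟨i, hiq, hi⟩ := X.hζ.eq_pow_of_pow_eq_one hσζ.pow_eq_one
  have hi0 : (i : ZMod q) ≠ 0 := fun h0 => by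
    have hd : q ∣ i := (ZMod.natCast_eq_zero_iff _ _).mp h0
    rw [← hi, Nat.eq_zero_of_dvd_of_lt hd hiq, pow_zero] at hσζ
    exact X.prime.one_lt.ne' (IsPrimitiveRoot.one.unique hσζ).symm
  have key : ∀ z ∈ X.L₁, σ z = X.sigma (Units.mk0 (i : ZMod q) hi0) z := by
    intro z hz
    induction hz using IntermediateField.adjoin_induction with
    | mem y hy =>
      rw [Set.mem_singleton_iff.mp hy, X.sigma_zeta, ← hi, Units.val_mk0, X.zeta_pow_val]
    | algebraMap c => rw [AlgEquiv.commutes, AlgEquiv.commutes]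
    | add y z _ _ hy hz => rw [map_add, map_add, hy, hz]
    | inv y _ hy => rw [map_inv₀, map_inv₀, hy]
    | mul y z _ _ hy hz => rw [map_mul, map_mul, hy, hz]
  rw [key a ha, h]

end Ctx

end FLTAgent.CarayolSquare
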