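import Fermat.Agent.CarayolSquare.Cusps.PosSeries
import Fermat.Agent.CarayolSquare.Geometry.Final
import Mathlib.RingTheory.Filtration

/-!
# A cusp of the level `M₁` curve

`CuspPt` packages a cusp with its chart and parameter; `exists_dvd` tells elements of its local ring
by their expansions.  Used for the split cover over a cusp in `Cusps.CuspLocal`.
-/

set_option autoImplicit false

noncomputable section

open ModularCurve FLTAgent.LevelM

namespace FLTAgent.CarayolSquare

local notation "Qbar" => AlgebraicClosure ℚ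

theorem isNoetherianRing_of_fg_module {O F : Type*} [CommRing O] [Field F] [Algebra O F]
    (A : Subalgebra O F) [IsNoetherianRing A] (S : Subring F) (hAS : ∀ a ∈ A, a ∈ S)
    (N : Submodule A F) (hN : N.FG) (hSN : ∀ x ∈ S, x ∈ N) : IsNoetherianRing S := by
  let Sa : Subalgebra A F := { S.toSubsemiring with algebraMap_mem' := fun a => hAS a a.2 }
  have : IsNoetherian A N := isNoetherian_of_fg_of_noetherian N hN
  have : IsNoetherian A Sa :=
    isNoetherian_of_le (t := N) (show Subalgebra.toSubmodule Sa ≤ N from hSN)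
  have : IsNoetherianRing Sa := isNoetherianRing_iff.mpr (isNoetherian_of_tower A inferInstance)
  exact isNoetherianRing_of_ringEquiv Sa
    { toFun := fun x => ⟨(x : F), x.2⟩
      invFun := fun x => ⟨(x : F), x.2⟩
      left_inv := fun _ => rfl
      right_inv := fun _ => rfl
      map_mul' := fun _ _ => rfl
      map_add' := fun _ _ => rfl }

section Sat

variable {R k : Type*} [CommRing R] [Field k] (φ : R →+* k)

/-- Elements moved into an ideal by an element not vanishing at a point. -/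
def satIdeal (I : Ideal R) : Ideal R where
  carrier := {z | ∃ s : R, φ s ≠ 0 ∧ s * z ∈ I}
  zero_mem' := ⟨1, by rw [map_one]; exact one_ne_zero, by rw [mul_zero]; exact zero_mem _⟩
  add_mem' := by
    rintro a b ⟨s, hs, ha⟩ ⟨t, ht, hb⟩
    refine ⟨s * t, by rw [map_mul]; exact mul_ne_zero hs ht, ?_⟩
    rw [mul_add, mul_right_comm, mul_assoc s t b]
    exact add_mem (I.mul_mem_right _ ha) (I.mul_mem_left _ hb)
  smul_mem' := by
    rintro r a ⟨s, hs, ha⟩
    refine ⟨s, hs, ?_⟩
    rw [smul_eq_mul, mul_left_comm]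
    exact I.mul_mem_left _ ha

theorem mem_satIdeal_of_mem {I : Ideal R} {z : R} (h : z ∈ I) : z ∈ satIdeal φ I :=
  ⟨1, by rw [map_one]; exact one_ne_zero, by rwa [one_mul]⟩

theorem satIdeal_pow_le {I : Ideal R} (hI : I ≤ RingHom.ker φ) (hmax : (RingHom.ker φ).IsMaximal)
    (N : ℕ) : satIdeal φ (I ^ N) ≤ RingHom.ker φ ^ N := by
  rintro z ⟨s, hs, hz⟩
  obtain ⟨t, i, hi, hti⟩ := hmax.exists_inv (x := s) hs
  have ht : 1 - s * t ∈ RingHom.ker φ := by
    rw [← hti, mul_comm s t, add_sub_cancel_left]; exact hi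
  obtain ⟨d, hd⟩ := sub_dvd_pow_sub_pow (1 : R) (1 - s * t) N
  have e : z = (1 - s * t) ^ N * z + t * d * (s * z) := by
    linear_combination (norm := ring_nf) z * hd
  rw [e]
  exact add_mem (Ideal.mul_mem_right _ _ (Ideal.pow_mem_pow ht N))
    (Ideal.mul_mem_left _ _ (Ideal.pow_right_mono hI N hz))

theorem span_pair_pow_le (x y : R) (N : ℕ) :
    Ideal.span {x, y} ^ N ≤ Ideal.span {x, y ^ N} := by
  induction N with
  | zero =>
    rw [pow_zero, pow_zero, Ideal.one_eq_top]
    exact top_le_iff.mpr ((Ideal.eq_top_iff_one _).mpr (Ideal.subset_span (Or.inr rfl)))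
  | succ n ih =>
    rw [pow_succ, Ideal.mul_le]
    intro r hr s hs
    obtain ⟨a, b, rfl⟩ := Ideal.mem_span_pair.mp (ih hr)
    obtain ⟨a', b', rfl⟩ := Ideal.mem_span_pair.mp hs
    rw [Ideal.mem_span_pair]
    exact ⟨a * (a' * x + b' * y) + b * y ^ n * a', b * b', by ring⟩

theorem mul_mem_span_pair_pow_succ {x y s z a b t t' a' b' : R} {N : ℕ}
    (hab : a * x + b * y ^ N = s * z) (ha : t' * a ∈ Ideal.span {x, y} ^ N)
    (hb : t * b = a' * x + b' * y) : t * t' * s * z ∈ Ideal.span {x, y} ^ (N + 1) := by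
  have hx : x ∈ Ideal.span {x, y} := Ideal.subset_span (Or.inl rfl)
  have hy : y ∈ Ideal.span {x, y} := Ideal.subset_span (Or.inr rfl)
  rw [show t * t' * s * z = t * (t' * a) * x + t' * y ^ N * (a' * x + b' * y) by
    rw [mul_assoc _ s z, ← hab, ← hb]; ring, pow_succ]
  exact add_mem (Ideal.mul_mem_mul (Ideal.mul_mem_left _ t ha) hx)
    (Ideal.mul_mem_mul (Ideal.mul_mem_left _ t' (Ideal.pow_mem_pow hy N))
      (add_mem (Ideal.mul_mem_left _ a' hx) (Ideal.mul_mem_left _ b' hy)))

theorem exists_mul_sub_eq_zero [IsNoetherianRing R] {b a : R}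
    (h : ∀ N : ℕ, ∃ A : R, a - b * A ∈ RingHom.ker φ ^ N) :
    ∃ s : R, φ s ≠ 0 ∧ b ∣ s * a := by
  set J : Ideal R := Ideal.span {b}
  have hx : ∀ N : ℕ, Ideal.Quotient.mk J a ∈ RingHom.ker φ ^ N • (⊤ : Submodule R (R ⧸ J)) := by
    intro N
    obtain ⟨A, hA⟩ := h N
    rw [show Ideal.Quotient.mk J a = (a - b * A) • (1 : R ⧸ J) by
      rw [Algebra.smul_def, mul_one]
      refine (Ideal.Quotient.eq.mpr ?_)
      rw [sub_sub_cancel]
      exact Ideal.mul_mem_right _ _ (Ideal.mem_span_singleton_self b)]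
    exact Submodule.smul_mem_smul hA trivial
  obtain ⟨r, hr⟩ := (Ideal.mem_iInf_smul_pow_eq_bot_iff (RingHom.ker φ) _).mp
    ((Submodule.mem_iInf _).mpr hx)
  refine ⟨1 - r, ?_, Ideal.mem_span_singleton.mp (?_ : (1 - (r : R)) * a ∈ J)⟩
  · rw [map_sub, map_one, show φ (r : R) = 0 from r.2, sub_zero]
    exact one_ne_zero
  · rw [← Ideal.Quotient.eq_zero_iff_mem, sub_mul, one_mul, map_sub, map_mul, sub_eq_zero]
    exact hr.symm

end Sat

variable {q : ℕ} [NeZero q] [Fact q.Prime]

namespace Model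

variable {X : Ctx q} {M₁ : ℕ} [NeZero M₁] (G : Model X M₁)

/-- Elements of `C` integral over `O[w]`. -/
def baseChart (w : Ser) : Subring G.C :=
  (intSet X.O ({w} : Set Ser)).comap G.C.val.toRingHom

variable {G}

omit [Fact (Nat.Prime q)] [NeZero q] in
theorem mem_baseChart_iff {w : Ser} {W : G.C} (hW : (W : Ser) = w) (c : G.C) :
    c ∈ G.baseChart w ↔ G.baseHom c ∈ G.uChart (G.baseHom W) := by
  show IsIntegral _ (c : Ser) ↔ IsIntegral _ _
  rw [← isIntegral_adjoin_map X.upA, ← isIntegral_adjoin_map G.valO, G.valO_baseHom,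
    G.valO_baseHom, hW]

variable (G)

/-- The map of the base chart into the chart. -/
def baseInc {w : Ser} {W : G.C} (hW : (W : Ser) = w) :
    G.baseChart w →+* G.uChart (G.baseHom W) :=
  (G.baseHom.toRingHom.comp (G.baseChart w).subtype).codRestrict _ fun c =>
    (mem_baseChart_iff hW c.1).mp c.2

omit [Fact (Nat.Prime q)] [NeZero q] in
theorem coe_baseInc {w : Ser} {W : G.C} (hW : (W : Ser) = w) (c : G.baseChart w) :
    (G.baseInc hW c : G.splitField) = G.baseHom c := rfl

omit [NeZero q] [Fact (Nat.Prime q)] in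
theorem algebraMap_mem_baseChart (w : Ser) (c : X.O) :
    algebraMap X.O G.C c ∈ G.baseChart w := by
  show G.C.val (algebraMap X.O G.C c) ∈ intSet X.O _
  rw [AlgHom.commutes]
  exact algebraMap_mem_intSet _ c

/-- A cusp in a chart, with a point of the chart over it. -/
structure CuspPt where
  w : Ser
  coord : G.Coord w
  W : G.C
  hW : (W : Ser) = w
  P : G.Point (G.uChart (G.baseHom W))
  δ : G.Cusp
  pos : ∀ c : G.baseChart w, G.cs δ c ∈ X.posInt
  res : ∀ c : G.baseChart w, P.φ (G.baseInc hW c) = X.pos0k ⟨_, pos c⟩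
  τ : G.baseChart w
  τ_order : X.UnitOrder (G.cs δ τ) 1
  gen : ∀ z : G.baseChart w, P.φ (G.baseInc hW z) = 0 →
    ∃ s : G.baseChart w, P.φ (G.baseInc hW s) ≠ 0 ∧ ∃ a b : G.baseChart w,
      s * z = a * (q : G.baseChart w) + b * τ

namespace CuspPt

variable {G} (c : G.CuspPt)

/-- The base chart. -/
abbrev Bc : Subring G.C := G.baseChart c.w

/-- The chart. -/
abbrev B : Subring G.splitField := G.uChart (G.baseHom c.W)

/-- The point of the base. -/
def φb : c.Bc →+* X.k := c.P.φ.comp (G.baseInc c.hW)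

/-- The maximal ideal of the cusp. -/
def 𝔪 : Ideal c.Bc := RingHom.ker c.φb

/-- The parameters. -/
def par : Ideal c.Bc := Ideal.span {(q : c.Bc), c.τ}

/-- Elements moved into an ideal by an element not vanishing at the cusp. -/
def sat (I : Ideal c.Bc) : Ideal c.Bc := satIdeal c.φb I

omit [Fact (Nat.Prime q)] [NeZero q] in
theorem φb_apply (z : c.Bc) : c.φb z = c.P.φ (G.baseInc c.hW z) := rfl

omit [Fact (Nat.Prime q)] in
theorem φb_eq (z : c.Bc) : c.φb z = X.pos0k ⟨_, c.pos z⟩ := (c.φb_apply z).trans (c.res z)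

omit [Fact (Nat.Prime q)] in
theorem φb_eq_zero_iff (z : c.Bc) :
    c.φb z = 0 ↔ X.A.valuation ((G.cs c.δ z).coeff 0) < 1 := by
  rw [c.φb_eq, X.pos0k_eq_zero_iff]

omit [Fact (Nat.Prime q)] [NeZero q] in
theorem φb_algebraMap (o : X.O) :
    c.φb ⟨algebraMap X.O G.C o, G.algebraMap_mem_baseChart c.w o⟩ = X.resK o :=
  c.P.const o _ (G.baseHom.commutes o)

omit [Fact (Nat.Prime q)] in
theorem maximal : c.𝔪.IsMaximal := by
  refine RingHom.ker_isMaximal_of_surjective c.φb fun r => ?_
  obtain ⟨o, ho⟩ := X.resK_surjective r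
  exact ⟨⟨algebraMap X.O G.C o, G.algebraMap_mem_baseChart c.w o⟩, (c.φb_algebraMap o).trans ho⟩

omit [Fact (Nat.Prime q)] in
theorem par_le : c.par ≤ c.𝔪 := by
  rw [par, Ideal.span_le]
  rintro x (rfl | rfl)
  · show c.φb (q : c.Bc) = 0
    rw [map_natCast, X.natCast_k]
  · show c.φb c.τ = 0
    rw [c.φb_eq_zero_iff, c.τ_order.1 0 (by norm_num), map_zero]
    exact zero_lt_one

omit [NeZero q] [Fact (Nat.Prime q)] in
theorem coeff_algebraMap_mul (o : X.O) (s : Ser) (i : ℤ) :
    (algebraMap X.O Ser o * s).coeff i = algebraMap X.K Qbar (o : X.K) * s.coeff i := by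
  rw [X.algebraMap_eq_C, HahnSeries.C_mul_eq_smul, HahnSeries.coeff_smul, smul_eq_mul]

omit [Fact (Nat.Prime q)] in
/-- A function vanishing to high order at the cusp lies in a high power of the parameters. -/
theorem mem_sat_of_small : ∀ (N : ℕ) (z : c.Bc),
    (∀ i : ℕ, i < N → X.A.valuation ((G.cs c.δ z).coeff (i : ℤ)) ≤
      X.A.valuation (q : Qbar) ^ (N - i)) → z ∈ c.sat (c.par ^ N) := by
  intro N
  induction N with
  | zero => intro z _; exact mem_satIdeal_of_mem c.φb (by rw [pow_zero, Ideal.one_eq_top]; trivial)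
  | succ N ih =>
    intro z hz
    have hz' : z ∈ c.sat (c.par ^ N) := ih z fun i hi => (hz i (by omega)).trans
      (pow_le_pow_right_of_le_one' X.q_lt_one.le (by omega))
    obtain ⟨s, hs, hsz⟩ := hz'
    refine (Ideal.mem_span_pair.mp (span_pair_pow_le _ _ N hsz)).elim fun a h =>
        h.elim fun b hab => ?_
    -- series
    have hsmall : ∀ i : ℕ, i < N + 1 → X.A.valuation ((G.cs c.δ (s * z : c.Bc)).coeff (i : ℤ)) ≤
        X.A.valuation (q : Qbar) ^ (N + 1 - i) := by
      intro i hi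
      obtain ⟨S, hS⟩ := c.pos s
      obtain ⟨Z, hZ⟩ := c.pos z
      rw [Subring.coe_mul, map_mul, ← hS, ← hZ, ← map_mul, X.coeff_ofA_nat, PowerSeries.coeff_mul]
      push_cast
      refine Valuation.map_sum_le _ fun x hx => ?_
      have hx' : x.1 + x.2 = i := Finset.HasAntidiagonal.mem_antidiagonal.mp hx
      rw [map_mul]
      refine (mul_le_of_le_one_left'
          ((X.A.valuation_le_one_iff _).mpr (Subtype.coe_prop _))).trans ?_
      rw [← X.coeff_ofA_nat, hZ]
      exact (hz x.2 (by omega)).trans (pow_le_pow_right_of_le_one' X.q_lt_one.le (by omega))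
    have hser : G.cs c.δ (s * z : c.Bc) =
        algebraMap X.O Ser (q : X.O) * G.cs c.δ a + G.cs c.δ b * G.cs c.δ c.τ ^ N := by
      rw [← hab]
      push_cast
      rw [map_add, map_mul, map_mul, map_pow, map_natCast]
      ring
    have hτlow := (coeff_pow_below c.τ_order.1 N).1
    have hτN := (coeff_pow_below c.τ_order.1 N).2
    have hbτ : ∀ i < (N : ℤ), (G.cs c.δ b * G.cs c.δ c.τ ^ N).coeff i = 0 := fun i hi =>
      coeff_mul_below (fun j hj => X.noPole_of_posInt (c.pos b) j hj) hτlow (by omega)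
    have hbN : (G.cs c.δ b * G.cs c.δ c.τ ^ N).coeff (N : ℤ) =
        (G.cs c.δ b).coeff 0 * (G.cs c.δ c.τ).coeff 1 ^ N := by
      have := coeff_mul_lead (fun j hj => X.noPole_of_posInt (c.pos b) j hj) hτlow
      rwa [hτN, zero_add, mul_one] at this
    have hq0 : 0 < X.A.valuation (q : Qbar) := X.v_q_pos
    have ha : a ∈ c.sat (c.par ^ N) := by
      refine ih a fun i hi => ?_
      have h1 := hsmall i (by omega)
      rw [hser, HahnSeries.coeff_add, hbτ _ (by exact_mod_cast hi), add_zero,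
        coeff_algebraMap_mul, map_mul] at h1
      simp only [SubringClass.coe_natCast, map_natCast] at h1
      rw [show N + 1 - i = (N - i) + 1 by omega, pow_succ, mul_comm] at h1
      exact le_of_mul_le_mul_right h1 hq0
    have hb : c.φb b = 0 := by
      rw [c.φb_eq_zero_iff]
      have h1 := hsmall N (Nat.lt_succ_self N)
      rw [show N + 1 - N = 1 by omega, pow_one, hser, HahnSeries.coeff_add, coeff_algebraMap_mul,
        hbN] at h1
      simp only [SubringClass.coe_natCast, map_natCast] at h1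
      have h2 : X.A.valuation ((G.cs c.δ b).coeff 0 * (G.cs c.δ c.τ).coeff 1 ^ N) ≤
          X.A.valuation (q : Qbar) := by
        have h3 : X.A.valuation ((q : Qbar) * (G.cs c.δ a).coeff (N : ℤ)) ≤ X.A.valuation
            (q : Qbar) := by
          rw [map_mul]
          exact mul_le_of_le_one_right' ((X.A.valuation_le_one_iff _).mpr
            (X.intSer_of_posInt (c.pos a) _))
        have := (X.A.valuation.map_sub ((q : Qbar) * (G.cs c.δ a).coeff (N : ℤ) +
          (G.cs c.δ b).coeff 0 * (G.cs c.δ c.τ).coeff 1 ^ N)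
          ((q : Qbar) * (G.cs c.δ a).coeff (N : ℤ))).trans (max_le h1 h3)
        rwa [add_sub_cancel_left] at this
      rw [map_mul, map_pow, c.τ_order.2, one_pow, mul_one] at h2
      exact lt_of_le_of_lt h2 X.q_lt_one
    have hb0 : c.P.φ (G.baseInc c.hW b) = 0 := (c.φb_apply b).symm.trans hb
    have hgen := c.gen b hb0
    obtain ⟨t, ht, hgen⟩ := hgen
    obtain ⟨a', b', htb⟩ := hgen
    rw [← c.φb_apply t] at ht
    obtain ⟨t', ht', hta⟩ := ha
    exact ⟨t * t' * s, by rw [map_mul, map_mul]; exact mul_ne_zero (mul_ne_zero ht ht') hs,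
      mul_mem_span_pair_pow_succ hab hta htb⟩

theorem isNoetherian_chart : IsNoetherianRing c.B := by
  have := X.dvr
  obtain ⟨N, hN, hsub⟩ := (G.chartFinite c.coord c.W c.hW (AlgebraicClosure G.splitField)).fg
  have : IsNoetherianRing (Algebra.adjoin X.O ({G.baseHom c.W} : Set G.splitField)) :=
    isNoetherianRing_of_fg ⟨{G.baseHom c.W}, by rw [Finset.coe_singleton]⟩
  exact isNoetherianRing_of_fg_module _ c.B (fun a ha => mem_intSet_of_mem_adjoin ha) N hN
    fun x hx => hsub x ((G.chartF_eq_uChart _).ge hx)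

theorem isNoetherian_base : IsNoetherianRing c.Bc := by
  have := X.dvr
  obtain ⟨N, hN, hsub⟩ := (G.chartFinite c.coord c.W c.hW (AlgebraicClosure G.splitField)).fg
  have : IsNoetherianRing (Algebra.adjoin X.O ({G.baseHom c.W} : Set G.splitField)) :=
    isNoetherianRing_of_fg ⟨{G.baseHom c.W}, by rw [Finset.coe_singleton]⟩
  have hW' : c.W ∈ c.Bc := (mem_baseChart_iff c.hW _).mpr (subset_intSet _ rfl)
  have : IsNoetherianRing (c.Bc.map G.baseHom.toRingHom) := by
    refine isNoetherianRing_of_fg_module _ _ (fun a ha => ?_) N hN fun x hx => ?_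
    · rw [show ({G.baseHom c.W} : Set G.splitField) = G.baseHom '' {c.W} by
          rw [Set.image_singleton],
        ← AlgHom.map_adjoin] at ha
      obtain ⟨a', ha', rfl⟩ := ha
      refine ⟨a', ?_, rfl⟩
      show a' ∈ c.Bc
      induction ha' using Algebra.adjoin_induction with
      | mem z hz => rw [Set.mem_singleton_iff.mp hz]; exact hW'
      | algebraMap r => exact G.algebraMap_mem_baseChart _ r
      | add a b _ _ ha hb => exact c.Bc.add_mem ha hb
      | mul a b _ _ ha hb => exact c.Bc.mul_mem ha hb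
    · obtain ⟨a, ha, rfl⟩ := hx
      exact hsub _ ((G.chartF_eq_uChart _).ge ((mem_baseChart_iff c.hW a).mp ha))
  exact isNoetherianRing_of_ringEquiv _
    (c.Bc.equivMapOfInjective G.baseHom.toRingHom (fun a b h => Subtype.ext (X.up.injective (by
      rw [← G.coe_baseHom, ← G.coe_baseHom]
      exact congrArg Subtype.val h)))).symm

omit [Fact (Nat.Prime q)] [NeZero q] in
/-- An expansion is approximated by elements of the base chart. -/
theorem exists_approx {g : Ser} (hg : X.CoeffInO g) (hn : NoPole g) (N : ℕ) :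
    ∃ A : c.Bc, ∀ i < (N : ℤ), (G.cs c.δ A).coeff i = g.coeff i := by
  induction N with
  | zero => exact ⟨0, fun i hi => by
      rw [hn i (by exact_mod_cast hi), ZeroMemClass.coe_zero, map_zero, HahnSeries.coeff_zero]⟩
  | succ N ih =>
    obtain ⟨A, hA⟩ := ih
    obtain ⟨d, hd⟩ := G.cs_coeff c.δ (A : G.C) (N : ℤ)
    obtain ⟨e, he⟩ := hg (N : ℤ)
    obtain ⟨t, ht⟩ := G.cs_coeff c.δ (c.τ : G.C) 1
    have htu : IsUnit t := (X.isUnit_iff_valuation t).mpr (by rw [ht]; exact c.τ_order.2)
    obtain ⟨t', ht'⟩ := htu.exists_right_inv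
    let o : c.Bc := ⟨algebraMap X.O G.C ((e - d) * t' ^ N), G.algebraMap_mem_baseChart _ _⟩
    have hτlow := (coeff_pow_below c.τ_order.1 N).1
    have hτN := (coeff_pow_below c.τ_order.1 N).2
    refine ⟨A + o * c.τ ^ N, fun i hi => ?_⟩
    rw [Subring.coe_add, Subring.coe_mul, SubmonoidClass.coe_pow,
      show ((o : c.Bc) : G.C) = algebraMap X.O G.C ((e - d) * t' ^ N) from rfl,
      map_add, map_mul, map_pow, AlgHom.commutes, HahnSeries.coeff_add, coeff_algebraMap_mul]
    rcases lt_or_eq_of_le (show i ≤ (N : ℤ) by push_cast at hi; omega) with hlt | rfl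
    · rw [hτlow i (by simpa using hlt), mul_zero, add_zero]
      exact hA i hlt
    · have hτN' : (G.cs c.δ (c.τ : G.C) ^ N).coeff (N : ℤ) = algebraMap X.K Qbar (t : X.K) ^ N := by
        rw [ht]; simpa using hτN
      rw [hτN', ← map_pow, ← map_mul, ← hd, ← he, ← map_add]
      congr 1
      have e1 : d + (e - d) * t' ^ N * t ^ N = e := by
        rw [mul_assoc, ← mul_pow, mul_comm t', ht', one_pow]; ring
      exact (congrArg Subtype.val e1 :)

/-- **Divisibility in the local ring of the cusp is divisibility of expansions.** -/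
theorem exists_dvd {a b : c.Bc} {g : Ser} (hg : X.CoeffInO g) (hn : NoPole g)
    (h : G.cs c.δ a = G.cs c.δ b * g) :
    ∃ s : c.Bc, c.φb s ≠ 0 ∧ b ∣ s * a := by
  have := c.isNoetherian_base
  refine exists_mul_sub_eq_zero c.φb fun N => ?_
  refine (c.exists_approx hg hn N).elim fun A hA => ?_
  refine ⟨A, satIdeal_pow_le c.φb c.par_le c.maximal N (c.mem_sat_of_small N _ fun i hi => ?_)⟩
  push_cast
  rw [map_sub, map_mul, h, ← mul_sub, coeff_mul_below (a := 0) (b := (N : ℤ))
    (fun j hj => X.noPole_of_posInt (c.pos b) j hj)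
    (fun j hj => by rw [HahnSeries.coeff_sub, hA j hj, sub_self]) (by omega), map_zero]
  exact zero_le

end CuspPt

end Model

end FLTAgent.CarayolSquare
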