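import Fermat.Agent.CarayolSquare.Cusps.CuspElts
import Fermat.Agent.CarayolSquare.Geometry.Single

/-!
# Separating the components at a cusp

The function `sel` separates the three components at a cusp and `par'` is a parameter along one of
them; `red_sel` computes its residues.  Used to find the regular points in `Cusps.CuspPoint`.
-/

set_option autoImplicit false

noncomputable section

open ModularCurve FLTAgent.LevelM

namespace FLTAgent.CarayolSquare

local notation "Qbar" => AlgebraicClosure ℚ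

theorem kindOf_eq_some_iff {q : ℕ} (P : Pair q) (b : Bool) :
    kindOf P = some b ↔ P.line b = none := by
  obtain ⟨⟨A, B⟩, h⟩ := P
  cases b <;> rcases A with _ | a <;> rcases B with _ | d <;>
    first | exact absurd rfl h | simp_all [kindOf, Pair.line]

theorem kindOf_eq_none_iff {q : ℕ} (P : Pair q) :
    kindOf P = none ↔ ∀ b, P.line b ≠ none := by
  obtain ⟨⟨A, B⟩, h⟩ := P
  rcases A with _ | a <;> rcases B with _ | d <;>
    first | exact absurd rfl h | simp_all [kindOf, Pair.line]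

theorem line_ne_none_of_eq_none {q : ℕ} {P : Pair q} {b : Bool} (h : P.line b = none) :
    P.line (!b) ≠ none := by
  obtain ⟨⟨A, B⟩, hAB⟩ := P
  cases b <;> rcases A with _ | a <;> rcases B with _ | d <;>
    first | exact absurd rfl hAB | simp_all [Pair.line]

variable {q : ℕ} [NeZero q] [Fact q.Prime]

namespace Ctx

variable (X : Ctx q)

omit [NeZero q] [Fact (Nat.Prime q)] in
theorem exists_eq_C_mul {η : Qbar} (hη : IsPrimitiveRoot η q) {s : Ser} (hs : s ∈ X.posInt)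
    (h : ∀ n, X.A.valuation (s.coeff n) ≤ X.A.valuation (1 - η)) :
    ∃ R : X.posInt, s = HahnSeries.C (1 - η) * (R : Ser) := by
  refine ⟨⟨HahnSeries.C (1 - η)⁻¹ * s, X.posInt_of (fun n => ?_) fun n hn => ?_⟩, ?_⟩
  · rw [HahnSeries.C_mul_eq_smul, HahnSeries.coeff_smul, smul_eq_mul, ← X.A.valuation_le_one_iff,
      map_mul, map_inv₀]
    exact inv_mul_le_one_of_le₀ (h n) zero_le
  · rw [HahnSeries.C_mul_eq_smul, HahnSeries.coeff_smul, X.noPole_of_posInt hs n hn, smul_zero]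
  · rw [← mul_assoc, ← map_mul, mul_inv_cancel₀ (X.one_sub_ne_zero hη), map_one, one_mul]

omit [NeZero q] [Fact (Nat.Prime q)] in
theorem coeff_sub_some (b : ZMod q) (s : Ser) (n : ℤ) :
    (X.sub (some b) s).coeff n = (X.ζ ^ b.val) ^ n * s.coeff n := by
  show (Igusa.scale (X.zetaU b) s).coeff n = _
  rw [Igusa.coeff_scale, Units.val_zpow_eq_zpow_val]
  rfl

omit [NeZero q] [Fact (Nat.Prime q)] in
theorem zpow_zeta_pow (b : ℕ) (n : ℤ) : ((X.ζ ^ b) ^ n) ^ q = 1 := by
  rw [← zpow_natCast ((X.ζ ^ b) ^ n), ← zpow_mul, mul_comm, zpow_mul, zpow_natCast, ← pow_mul,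
    mul_comm b, pow_mul, X.hζ.pow_eq_one, one_pow, one_zpow]

omit [NeZero q] [Fact (Nat.Prime q)] in
theorem zetaConst_pow (M₁ : ℕ) (b : ZMod q) : ((X.ζ ^ b.val) ^ M₁) ^ q = 1 := by
  rw [pow_right_comm _ M₁, pow_right_comm X.ζ, X.hζ.pow_eq_one, one_pow, one_pow]

theorem coeff_twistSer_zero (a : (ZMod q)ˣ) (b : ZMod q) (s : Ser) :
    (X.twistSer a b s).coeff 0 = X.sigma a (s.coeff 0) := by
  show (Igusa.scale (X.zetaU b) (coeffMap _ s)).coeff 0 = _
  rw [Igusa.coeff_scale, zpow_zero, Units.val_one, one_mul, coeffMap_coeff]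
  rfl

omit [NeZero q] [Fact (Nat.Prime q)] in
theorem pos0_algebraMap (o : X.O) :
    (X.pos0 ⟨_, X.algebraMap_mem_posInt o⟩ : Qbar) = algebraMap X.K Qbar (o : X.K) := by
  show (algebraMap X.O Ser o).coeff 0 = _
  rw [X.algebraMap_eq_C, HahnSeries.C_apply, HahnSeries.coeff_single_same]

omit [NeZero q] [Fact (Nat.Prime q)] in
theorem resK_of_coe {o : X.O} {s : X.posInt}
    (h : (s : Ser).coeff 0 = algebraMap X.K Qbar (o : X.K)) : X.pos0k s = X.resK o :=
  congrArg (IsLocalRing.residue X.A) (Subtype.ext h)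

end Ctx

namespace Model

variable {X : Ctx q} {M₁ : ℕ} [NeZero M₁] {G : Model X M₁}

/-- The constant terms along a component are conjugate. -/
theorem coeff_zero_orbit (δ : G.Cusp) {P : Pair q} {κ : Option Bool} (h : kindOf P = κ) :
    ∃ a : (ZMod q)ˣ, ∀ z : G.splitField,
      (G.emb δ P z).coeff 0 = X.sigma a ((G.emb δ (kindPair κ) z).coeff 0) := by
  obtain ⟨a, b, hab⟩ := exists_affPair P
  refine ⟨a, fun z => ?_⟩
  rw [← X.coeff_twistSer_zero a b, G.twistSer_emb, ← h, hab]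

omit [Fact (Nat.Prime q)] [NeZero q] in
theorem coeff_mem_L₁ (δ : G.Cusp) (P : Pair q) (z : G.splitField) (n : ℤ) :
    (G.emb δ P z).coeff n ∈ X.L₁ := by
  obtain ⟨a, b, haL, hbL, hb0, hab⟩ := G.isBounded_emb δ P z
  rw [show G.emb δ P z = (a : Ser) * (b : Ser)⁻¹ by rw [← hab, mul_inv_cancel_right₀ hb0]]
  exact mul_mem haL (X.inv_mem_serL₁ hbL) n

/-- The constant term on an end component is rational. -/
theorem exists_const_end (δ : G.Cusp) (b : Bool) {z : G.splitField}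
    (hz : G.emb δ (kindPair (some b)) z ∈ X.posInt) :
    ∃ o : X.O, ∀ P : Pair q, kindOf P = some b →
      (G.emb δ P z).coeff 0 = algebraMap X.K Qbar (o : X.K) := by
  have hfix : ∀ a : (ZMod q)ˣ, X.sigma a ((G.emb δ (kindPair (some b)) z).coeff 0) =
      (G.emb δ (kindPair (some b)) z).coeff 0 := fun a => by
    have hP : affPair a 0 (kindPair (q := q) (some b)) = kindPair (some b) := by
      cases b <;> exact Subtype.ext (by simp [affPair, kindPair, Pair.base, Ctx.affLine])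
    rw [← X.coeff_twistSer_zero a 0, G.twistSer_emb, hP]
  obtain ⟨o, ho⟩ := X.mem_K_of_fixed (coeff_mem_L₁ δ _ z 0) hfix
  have hoA : algebraMap X.K Qbar o ∈ X.A := by rw [ho]; exact X.intSer_of_posInt hz 0
  refine ⟨⟨o, hoA⟩, fun P hP => ?_⟩
  obtain ⟨a, ha⟩ := coeff_zero_orbit (G := G) δ hP
  show _ = algebraMap X.K Qbar o
  rw [ha, ← ho, AlgEquiv.commutes]

namespace CuspPt

variable (c : G.CuspPt)

omit [Fact (Nat.Prime q)] in
theorem lead_res_ne_zero : X.resK c.lead ≠ 0 := (c.isUnit_lead.map X.resK).ne_zero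

omit [Fact (Nat.Prime q)] in
theorem pos0k_parUnit : X.pos0k c.parUnit = X.resK c.lead := X.resK_of_coe c.pos0_parUnit

omit [Fact (Nat.Prime q)] in
/-- Values of `rho`. -/
theorem rho_val (P' : Pair q) (b : Bool) : ∃ h : G.emb c.δ P' (c.rho b) ∈ X.posInt,
    X.pos0k ⟨_, h⟩ = if P'.line b = none then 0 else X.resK c.lead := by
  rcases hL : P'.line b with _ | d
  · rw [if_pos rfl]
    exact qMul_mem (c.emb_rho_none hL)
  · rw [if_neg (Option.some_ne_none d)]
    refine ⟨c.emb_rho_some hL ▸ Subtype.coe_prop _, ?_⟩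
    rw [show (⟨G.emb c.δ P' (c.rho b), _⟩ : X.posInt) = X.famUnit M₁ d ^ q * c.parUnit from
      Subtype.ext (c.emb_rho_some hL), map_mul, map_pow, c.pos0k_parUnit,
      show X.pos0k (X.famUnit M₁ d) = 1 by
        rw [Ctx.pos0k, RingHom.comp_apply, X.famUnit_coeff_zero, map_one],
      one_pow, one_mul]

omit [Fact (Nat.Prime q)] in
theorem rho_const {P' : Pair q} {b : Bool} {d : ZMod q} (h : P'.line b = some d) :
    (G.emb c.δ P' (c.rho b)).coeff 0 = algebraMap X.K Qbar (c.lead : X.K) := by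
  rw [c.emb_rho_some h, ← X.coe_pos0, map_mul, map_pow, X.famUnit_coeff_zero, one_pow, one_mul,
    c.pos0_parUnit]

omit [Fact (Nat.Prime q)] in
theorem emb_sig_some {P' : Pair q} {b : Bool} {d d' : ZMod q} (h : P'.line b = some d)
    (h' : P'.line (!b) = some d') :
    G.emb c.δ P' (c.sig b) =
      ((X.zetaConst M₁ d' * X.zetaConst M₁ d ^ (q - 1) * X.famUnit M₁ d' *
        X.famUnit M₁ d ^ (q - 1) * c.parUnit : X.posInt) : Ser) := by
  rw [sig, map_mul, map_mul, c.emb_tau_pow, map_pow, G.emb_gen, G.emb_gen, h, h']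
  show discFam X M₁ (some d') * discFam X M₁ (some d) ^ (q - 1) * _ = _
  rw [X.discFam_some_eq, X.discFam_some_eq, mul_pow, mul_pow,
    show Ctx.tpow ((M₁ : ℤ) - (q : ℤ) * M₁) ^ (q - 1) =
      Ctx.tpow (((q - 1 : ℕ) : ℤ) * ((M₁ : ℤ) - (q : ℤ) * M₁)) by
      rw [Ctx.tpow, HahnSeries.single_pow, one_pow, nsmul_eq_mul]]
  push_cast
  rw [X.coe_zetaConst, X.coe_zetaConst]
  have e : Ctx.tpow ((M₁ : ℤ) - (q : ℤ) * M₁) *
      (Ctx.tpow (((q - 1 : ℕ) : ℤ) * ((M₁ : ℤ) - (q : ℤ) * M₁)) * Ctx.tpow ((q : ℤ) * c.tauPow)) =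
      1 := by
    rw [Ctx.tpow_add, Ctx.tpow_add, c.cast_tauPow, Nat.cast_sub (NeZero.one_le : 1 ≤ q),
      Nat.cast_one, show ((M₁ : ℤ) - (q : ℤ) * M₁) + (((q : ℤ) - 1) * ((M₁ : ℤ) - (q : ℤ) * M₁) +
        (q : ℤ) * ((M₁ : ℤ) * ((q : ℤ) - 1))) = 0 by ring]
    simp [Ctx.tpow]
  generalize (HahnSeries.C ((X.ζ ^ d'.val) ^ M₁) : Ser) = A₁
  generalize (HahnSeries.C ((X.ζ ^ d.val) ^ M₁) : Ser) = A₂
  linear_combination (A₁ * A₂ ^ (q - 1) * (X.famUnit M₁ d' : Ser) *
    (X.famUnit M₁ d : Ser) ^ (q - 1) * (c.parUnit : Ser)) * e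

/-- The root of unity in the middle. -/
def midRoot (X : Ctx q) (M₁ : ℕ) (d d' : ZMod q) : Qbar :=
  (X.ζ ^ d'.val) ^ M₁ * ((X.ζ ^ d.val) ^ M₁) ^ (q - 1)

omit [NeZero q] [Fact (Nat.Prime q)] in
theorem midRoot_pow (X : Ctx q) (M₁ : ℕ) (d d' : ZMod q) : midRoot X M₁ d d' ^ q = 1 := by
  rw [midRoot, mul_pow, pow_right_comm _ (q - 1), X.zetaConst_pow, X.zetaConst_pow,
      one_pow, one_mul]

omit [Fact (Nat.Prime q)] in
/-- On the middle component `mel` is a multiple of `1 - η`. -/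
theorem mel_mid {η : Qbar} (hη : IsPrimitiveRoot η q) {P' : Pair q} {b : Bool} {d d' : ZMod q}
    (h : P'.line b = some d) (h' : P'.line (!b) = some d') :
    ∃ R : X.posInt, G.emb c.δ P' (c.mel b) = HahnSeries.C (1 - η) * (R : Ser) ∧
      (1 - η) * (R : Ser).coeff 0 =
        (1 - midRoot X M₁ d d') * algebraMap X.K Qbar (c.lead : X.K) := by
  set ξ := midRoot X M₁ d d' with hξ
  let Di : X.posInt := ⟨_, X.up_mem_posInt (X.discLeadInv_spec M₁).1⟩
  have hξs : HahnSeries.C ξ ∈ X.posInt := by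
    rw [hξ, midRoot, map_mul, map_pow _ _ (q - 1), ← X.coe_zetaConst, ← X.coe_zetaConst]
    exact mul_mem (Subtype.coe_prop _) (pow_mem (Subtype.coe_prop _) _)
  set diff : Ser :=
      X.sub (some d) (X.discLead M₁) - HahnSeries.C ξ * X.sub (some d') (X.discLead M₁)
    with hdiff
  have hdmem : diff ∈ X.posInt := sub_mem (X.scale_mem_posInt d (X.discLead_spec M₁).1)
    (mul_mem hξs (X.scale_mem_posInt d' (X.discLead_spec M₁).1))
  obtain ⟨R₀, hR₀⟩ := X.exists_eq_C_mul hη hdmem fun n => by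
    rw [hdiff, HahnSeries.coeff_sub, HahnSeries.C_mul_eq_smul, HahnSeries.coeff_smul, smul_eq_mul,
      X.coeff_sub_some, X.coeff_sub_some, ← mul_assoc, ← sub_mul, map_mul]
    refine (mul_le_of_le_one_right' ((X.A.valuation_le_one_iff _).mpr
      (X.intSer_of_posInt (X.discLead_spec M₁).1 n))).trans ?_
    refine X.valuation_sub_le hη (X.zpow_zeta_pow _ n) ?_
    rw [mul_pow, hξ, midRoot_pow, X.zpow_zeta_pow, one_mul]
  refine ⟨R₀ * Di * X.famUnit M₁ d ^ (q - 1) * c.parUnit, ?_, ?_⟩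
  · rw [mel, map_sub, c.emb_rho_some h, c.emb_sig_some h h']
    push_cast
    rw [X.coe_zetaConst, X.coe_zetaConst, ← mul_assoc, ← mul_assoc, ← mul_assoc, ← hR₀, hdiff,
      ← map_pow, ← map_mul, show (X.ζ ^ d'.val) ^ M₁ * ((X.ζ ^ d.val) ^ M₁) ^ (q - 1) = ξ from rfl,
      show (Di : Ser) = X.up (X.discLeadInv M₁) from rfl,
      show (X.famUnit M₁ d' : Ser) = X.sub (some d') (X.discLead M₁) * X.up (X.discLeadInv M₁)
        from rfl]
    have e : (X.famUnit M₁ d : Ser) = X.sub (some d) (X.discLead M₁) * X.up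
        (X.discLeadInv M₁) := rfl
    conv_lhs => arg 1; rw [show (X.famUnit M₁ d : Ser) ^ q =
      (X.famUnit M₁ d : Ser) * (X.famUnit M₁ d : Ser) ^ (q - 1) by
      rw [← pow_succ', Nat.sub_add_cancel (NeZero.one_le : 1 ≤ q)]]
    rw [e]
    ring
  · have h0 : (X.pos0 (R₀ * Di * X.famUnit M₁ d ^ (q - 1) * c.parUnit) : Qbar) =
        (R₀ : Ser).coeff 0 * algebraMap X.K Qbar (c.lead : X.K) := by
      rw [map_mul, map_mul, map_mul, map_pow, X.famUnit_coeff_zero, one_pow,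
        X.pos0_eq (s := Di) (a := 1) ((X.coeff_up_zero _).trans (X.discLeadInv_spec M₁).2)]
      push_cast
      rw [mul_one, mul_one, c.pos0_parUnit, X.coe_pos0]
    rw [X.coe_pos0] at h0
    rw [h0, ← mul_assoc]
    congr 1
    have h1 := congrArg (fun s : Ser => s.coeff 0) hR₀
    simp only [hdiff, HahnSeries.coeff_sub, HahnSeries.C_mul_eq_smul, HahnSeries.coeff_smul,
      smul_eq_mul, X.coeff_scale_zero, (X.discLead_spec M₁).2, mul_one] at h1
    exact h1.symm

omit [Fact (Nat.Prime q)] in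
/-- Values of `mel`. -/
theorem mel_val (P' : Pair q) (b : Bool) : ∃ h : G.emb c.δ P' (c.mel b) ∈ X.posInt,
    X.pos0k ⟨_, h⟩ = if P'.line (!b) = none then X.resK c.lead else 0 := by
  by_cases hq : P'.line b = none ∨ P'.line (!b) = none
  · obtain ⟨hs, hs0⟩ := qMul_mem (c.emb_sig_none hq)
    obtain ⟨hr, hr0⟩ := c.rho_val P' b
    have hm : G.emb c.δ P' (c.mel b) ∈ X.posInt := by rw [mel, map_sub]; exact sub_mem hr hs
    refine ⟨hm, ?_⟩
    rw [show (⟨_, hm⟩ : X.posInt) = ⟨_, hr⟩ - ⟨_, hs⟩ from Subtype.ext (map_sub _ _ _),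
        map_sub, hs0,
      sub_zero, hr0]
    rcases hq with h | h
    · rw [if_pos h, if_neg (line_ne_none_of_eq_none h)]
    · rw [if_pos h, if_neg]
      have := line_ne_none_of_eq_none h
      rwa [Bool.not_not] at this
  · push Not at hq
    obtain ⟨d, hd⟩ := Option.ne_none_iff_exists'.mp hq.1
    obtain ⟨d', hd'⟩ := Option.ne_none_iff_exists'.mp hq.2
    obtain ⟨R, hR, -⟩ := c.mel_mid X.hζ hd hd'
    rw [if_neg hq.2]
    have hC : HahnSeries.C (1 - X.ζ) ∈ X.posInt := X.posInt_of (fun n => by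
      rw [HahnSeries.C_apply, HahnSeries.coeff_single]
      split
      · exact sub_mem X.A.one_mem X.ζ_mem_A
      · exact X.A.zero_mem) fun n hn => by
            rw [HahnSeries.C_apply, HahnSeries.coeff_single_of_ne hn.ne]
    refine ⟨hR ▸ mul_mem hC R.2, ?_⟩
    rw [show (⟨G.emb c.δ P' (c.mel b), _⟩ : X.posInt) = ⟨_, hC⟩ * R from Subtype.ext hR, map_mul,
      (X.pos0k_eq_zero_iff ⟨_, hC⟩).mpr (by
        show X.A.valuation ((HahnSeries.C (1 - X.ζ) : Ser).coeff 0) < 1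
        rw [HahnSeries.C_apply, HahnSeries.coeff_single_same]
        exact X.valuation_one_sub_lt X.hζ), zero_mul]

/-- A function equal to a unit along the component and vanishing on the others. -/
def sel : Option Bool → G.splitField
  | some b => c.rho (!b) * c.mel (!b)
  | none => c.rho true * c.rho false

omit [Fact (Nat.Prime q)] in
/-- Values of `sel`. -/
theorem sel_val (P' : Pair q) (κ : Option Bool) : ∃ h : G.emb c.δ P' (c.sel κ) ∈ X.posInt,
    X.pos0k ⟨_, h⟩ = if kindOf P' = κ then X.resK c.lead ^ 2 else 0 := by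
  rcases κ with _ | b
  · obtain ⟨h1, e1⟩ := c.rho_val P' true
    obtain ⟨h2, e2⟩ := c.rho_val P' false
    have hm : G.emb c.δ P' (c.sel none) ∈ X.posInt := by rw [sel, map_mul]; exact mul_mem h1 h2
    refine ⟨hm, ?_⟩
    rw [show (⟨_, hm⟩ : X.posInt) = ⟨_, h1⟩ * ⟨_, h2⟩ from Subtype.ext (map_mul _ _ _), map_mul, e1,
      e2]
    by_cases hk : kindOf P' = none
    · have := (kindOf_eq_none_iff P').mp hk
      rw [if_pos hk, if_neg (this true), if_neg (this false), sq]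
    · rw [if_neg hk]
      rw [kindOf_eq_none_iff] at hk
      push Not at hk
      obtain ⟨b, hb⟩ := hk
      cases b
      · rw [if_pos hb, mul_zero]
      · rw [if_pos hb, zero_mul]
  · obtain ⟨h1, e1⟩ := c.rho_val P' (!b)
    obtain ⟨h2, e2⟩ := c.mel_val P' (!b)
    have hm : G.emb c.δ P' (c.sel (some b)) ∈ X.posInt := by rw [sel, map_mul]; exact mul_mem h1 h2
    refine ⟨hm, ?_⟩
    rw [show (⟨_, hm⟩ : X.posInt) = ⟨_, h1⟩ * ⟨_, h2⟩ from Subtype.ext (map_mul _ _ _), map_mul, e1,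
      e2, Bool.not_not]
    by_cases hk : P'.line b = none
    · rw [if_pos hk, if_neg (line_ne_none_of_eq_none hk),
          if_pos ((kindOf_eq_some_iff P' b).mpr hk), sq]
    · rw [if_neg hk, mul_zero, if_neg fun h => hk ((kindOf_eq_some_iff P' b).mp h)]

omit [Fact (Nat.Prime q)] in
theorem sel_mem (P' : Pair q) (κ : Option Bool) : G.emb c.δ P' (c.sel κ) ∈ X.posInt :=
  (c.sel_val P' κ).1

/-- The constant term of `sel` on its component. -/
theorem exists_sel_const (κ : Option Bool) : ∃ e : X.O, IsUnit e ∧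
    ∀ P : Pair q, kindOf P = κ →
      (G.emb c.δ P (c.sel κ)).coeff 0 = algebraMap X.K Qbar (e : X.K) := by
  rcases κ with _ | b
  · refine ⟨c.lead * c.lead, c.isUnit_lead.mul c.isUnit_lead, fun P hP => ?_⟩
    have hb := (kindOf_eq_none_iff P).mp hP
    obtain ⟨d, hd⟩ := Option.ne_none_iff_exists'.mp (hb true)
    obtain ⟨d', hd'⟩ := Option.ne_none_iff_exists'.mp (hb false)
    have h := congrArg Subtype.val
      (map_mul X.pos0 ⟨_, (c.rho_val P true).1⟩ ⟨_, (c.rho_val P false).1⟩)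
    simp only [X.coe_pos0, MulMemClass.coe_mul] at h
    rw [sel, map_mul, h, c.rho_const hd, c.rho_const hd']
    simp
  · obtain ⟨o, ho⟩ := exists_const_end (G := G) c.δ b (c.sel_mem _ (some b))
    refine ⟨o, ?_, ho⟩
    obtain ⟨h, e⟩ := c.sel_val (kindPair (some b)) (some b)
    rw [if_pos (kindOf_kindPair _), X.resK_of_coe (o := o) (ho _ (kindOf_kindPair _))] at e
    exact X.isUnit_of_resK (e ▸ pow_ne_zero 2 c.lead_res_ne_zero)

/-- The parameter of the twisted cusp. -/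
def par' : G.C := (G.param (G.twB c.δ) (G.twP c.δ)).choose

/-- A function of one line which is a parameter on the component. -/
def yzero : Option Bool → G.splitField
  | some b => G.gen (!b) (.pull c.par')
  | none => G.gen false (.pull c.par')

omit [Fact (Nat.Prime q)] in
theorem yzero_mem (P' : Pair q) (κ : Option Bool) : G.emb c.δ P' (c.yzero κ) ∈ X.posInt := by
  obtain ⟨hB, hP⟩ := (G.param (G.twB c.δ) (G.twP c.δ)).choose_spec
  have hA : ∀ δ', G.cs δ' c.par' ∈ X.intSer := fun δ' =>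
    (X.goodSer_of_coeffInO (G.cs_coeff δ' c.par')).1
  have hline : ∀ L : Line q, G.gs c.δ L (.pull c.par') ∈ X.posInt := by
    intro L
    show X.sub L (G.cs (lineCusp G.twP G.twB c.δ L) c.par') ∈ X.posInt
    cases L with
    | none => exact X.up_mem_posInt (X.up_mem_posInt (X.posInt_of (hA _) hP))
    | some d => exact X.scale_mem_posInt d (X.posInt_of (hA _) fun n hn => hB.1 n (by omega))
  rcases κ with _ | b <;> rw [yzero, G.emb_gen] <;> exact hline _

omit [Fact (Nat.Prime q)] in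
theorem yzero_orbit {P' : Pair q} {κ : Option Bool} (h : kindOf P' = κ) :
    ∃ t : X.posInt, G.emb c.δ P' (c.yzero κ) = Ctx.tpow 1 * (t : Ser) ∧ X.pos0k t ≠ 0 := by
  obtain ⟨hB, -⟩ := (G.param (G.twB c.δ) (G.twP c.δ)).choose_spec
  have hline : ∀ d : ZMod q, ∃ t : X.posInt,
      G.gs c.δ (some d) (.pull c.par') = Ctx.tpow 1 * (t : Ser) ∧ X.pos0k t ≠ 0 := by
    intro d
    have hu : X.UnitOrder (G.gs c.δ (some d) (.pull c.par')) 1 := by
      show X.UnitOrder (X.sub (some d) (G.cs (G.twB c.δ) c.par')) 1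
      refine ⟨fun n hn => ?_, ?_⟩
      · rw [X.coeff_sub_some, show (G.cs (G.twB c.δ) c.par').coeff n = 0 from hB.1 n hn, mul_zero]
      · rw [X.coeff_sub_some, map_mul, map_zpow₀, map_pow, show X.A.valuation X.ζ = 1 from
          (pow_eq_one_iff_left X.prime.ne_zero).mp (by rw [← map_pow, X.hζ.pow_eq_one, map_one]),
          one_pow, one_zpow, one_mul]
        exact hB.2
    obtain ⟨t, ht, ht0⟩ :=
      X.exists_eq_tpow_mul_of_unitOrder (G.gs_mem_goodSer c.δ (some d) (.pull c.par')).1 hu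
    exact ⟨t, ht, fun h0 => ((X.pos0k_eq_zero_iff t).mp h0).ne (by rw [ht0]; exact hu.2)⟩
  rcases κ with _ | b
  · obtain ⟨d, hd⟩ := Option.ne_none_iff_exists'.mp ((kindOf_eq_none_iff P').mp h false)
    rw [yzero, G.emb_gen, hd]
    exact hline d
  · obtain ⟨d, hd⟩ := Option.ne_none_iff_exists'.mp
      (line_ne_none_of_eq_none ((kindOf_eq_some_iff P' b).mp h))
    rw [yzero, G.emb_gen, hd]
    exact hline d

/-- **A function which is a parameter along the component and a unit on the others.** -/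
theorem exists_yel (κ : Option Bool) : ∃ y : G.splitField,
    (∀ P : Pair q, ∃ h : G.emb c.δ P y ∈ X.posInt, kindOf P ≠ κ → X.pos0k ⟨_, h⟩ ≠ 0) ∧
      ∀ P : Pair q, kindOf P = κ →
        ∃ t : X.posInt, G.emb c.δ P y = Ctx.tpow 1 * (t : Ser) ∧ X.pos0k t ≠ 0 := by
  obtain ⟨e, he, hconst⟩ := c.exists_sel_const κ
  obtain ⟨e', he'⟩ := he.exists_right_inv
  set F : G.splitField := 1 - c.sel κ * algebraMap X.O G.splitField e' with hF
  have hF' : ∀ P : Pair q, ∃ h : G.emb c.δ P F ∈ X.posInt,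
      X.pos0 ⟨_, h⟩ = 1 - X.pos0 ⟨_, c.sel_mem P κ⟩ *
        X.pos0 ⟨_, X.algebraMap_mem_posInt e'⟩ := by
    intro P
    have h1 : G.emb c.δ P F =
        ((1 - ⟨_, c.sel_mem P κ⟩ * ⟨_, X.algebraMap_mem_posInt e'⟩ : X.posInt) : Ser) := by
      rw [hF, map_sub, map_one, map_mul]
      push_cast
      rw [show G.emb c.δ P (algebraMap X.O G.splitField e') = algebraMap X.O Ser e' from
        (G.embO c.δ P).commutes e']
    refine ⟨h1 ▸ Subtype.coe_prop _, ?_⟩
    rw [show (⟨G.emb c.δ P F, _⟩ : X.posInt) = 1 - ⟨_, c.sel_mem P κ⟩ *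
        ⟨_, X.algebraMap_mem_posInt e'⟩
      from Subtype.ext h1, map_sub, map_one, map_mul]
  refine ⟨c.sel κ * c.yzero κ + F ^ 2, fun P => ?_, fun P hP => ?_⟩
  · obtain ⟨hFm, hF0⟩ := hF' P
    have hm : G.emb c.δ P (c.sel κ * c.yzero κ + F ^ 2) =
        ((⟨_, c.sel_mem P κ⟩ * ⟨_, c.yzero_mem P κ⟩ + ⟨_, hFm⟩ ^ 2 : X.posInt) : Ser) := by
      rw [map_add, map_mul, map_pow]; rfl
    refine ⟨hm ▸ Subtype.coe_prop _, fun hne => ?_⟩
    rw [show (⟨G.emb c.δ P (c.sel κ * c.yzero κ + F ^ 2), _⟩ : X.posInt) =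
      ⟨_, c.sel_mem P κ⟩ * ⟨_, c.yzero_mem P κ⟩ + ⟨_, hFm⟩ ^ 2 from Subtype.ext hm]
    obtain ⟨h, hs⟩ := c.sel_val P κ
    rw [if_neg hne] at hs
    rw [map_add, map_mul, hs, zero_mul, zero_add, map_pow]
    refine pow_ne_zero 2 ?_
    rw [show X.pos0k ⟨_, hFm⟩ = IsLocalRing.residue X.A (X.pos0 ⟨_, hFm⟩) from rfl, hF0, map_sub,
      map_one, map_mul, show IsLocalRing.residue X.A (X.pos0 ⟨_, c.sel_mem P κ⟩) = 0 from hs,
      zero_mul, sub_zero]
    exact one_ne_zero
  · obtain ⟨hFm, hF0⟩ := hF' P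
    obtain ⟨t, ht, ht0⟩ := c.yzero_orbit hP
    obtain ⟨r, hr, -⟩ := X.exists_eq_tpow_mul hFm (by
      rw [← X.coe_pos0 ⟨_, hFm⟩, hF0]
      push_cast
      rw [X.pos0_algebraMap, X.coe_pos0, hconst P hP, ← map_mul, ← Subring.coe_mul, he']
      simp)
    refine ⟨⟨_, c.sel_mem P κ⟩ * t + ⟨_, X.tpow_mem_posInt zero_le_one⟩ * r ^ 2, ?_, ?_⟩
    · rw [map_add, map_mul, map_pow, ht, hr]
      push_cast
      ring
    · obtain ⟨h, hs⟩ := c.sel_val P κ
      rw [if_pos hP] at hs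
      rw [map_add, map_mul, map_mul, hs, show X.pos0k ⟨_, X.tpow_mem_posInt zero_le_one⟩ = 0 from
        (X.pos0k_eq_zero_iff _).mpr (by
          simp [Ctx.tpow]), zero_mul, add_zero]
      exact mul_ne_zero (pow_ne_zero 2 c.lead_res_ne_zero) ht0

/-! ### Residues at the components -/

/-- The functions with integral expansion at a component. -/
def intAt (κ : Option Bool) : Subring G.splitField :=
  X.intSer.comap (G.emb G.one (kindPair κ)).toRingHom

theorem redS_disc_eq (d d' : ZMod q) :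
    X.redS ⟨discFam X M₁ (some d), (X.discFam_mem_goodSer M₁ (some d)).1⟩ =
      X.redS ⟨discFam X M₁ (some d'), (X.discFam_mem_goodSer M₁ (some d')).1⟩ := by
  have h := (X.redS_discFam_some M₁ d).trans (X.redS_discFam_some M₁ d').symm
  refine mul_right_cancel₀ (pow_ne_zero q fun h0 => ?_) h
  obtain ⟨hD, -, hI, hDI⟩ := X.discLevel_spec M₁
  have h1 := congrArg X.redS (show (⟨_, hD⟩ * ⟨_, hI⟩ : X.intSer) = 1 from Subtype.ext hDI)
  rw [map_mul, map_one, h0, zero_mul] at h1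
  exact zero_ne_one h1

theorem intAt_elts (κ : Option Bool) :
    (∀ b, G.gen b .disc ∈ intAt (G := G) κ) ∧ G.baseHom c.τ ∈ intAt (G := G) κ := by
  refine ⟨fun b => ?_, ?_⟩
  · show G.emb G.one (kindPair κ) (G.gen b .disc) ∈ X.intSer
    rw [G.emb_gen]
    exact (X.discFam_mem_goodSer M₁ _).1
  · show G.emb G.one (kindPair κ) (G.baseHom c.τ) ∈ X.intSer
    rw [G.emb_baseHom]
    exact X.up_mem_intSer (X.goodSer_of_coeffInO (G.cs_coeff _ _)).1

/-- The residue on `intAt`. -/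
def redI (G : Model X M₁) (κ : Option Bool) : intAt (G := G) κ →+* LaurentSeries X.k :=
  X.redS.comp (((G.emb G.one (kindPair κ)).toRingHom.comp (intAt (G := G) κ).subtype).codRestrict
    X.intSer fun z => z.2)

theorem red_eq_redI {κ : Option Bool} (z : intAt (G := G) κ) :
    (z : G.splitField) ∈ G.V κ ∧ G.red κ (z : G.splitField) = redI G κ z := by
  obtain ⟨hV, h⟩ := G.red_of_emb (κ := κ) (z := (z : G.splitField))
    ⟨G.emb G.one (kindPair κ) z, X.intSer_le_gaussRing z.2⟩ rfl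
  exact ⟨hV, h.trans (X.gaussRes_of_intSer ⟨_, z.2⟩)⟩

theorem sel_intAt (κ κ' : Option Bool) : c.sel κ ∈ intAt (G := G) κ' := by
  obtain ⟨hd, hT⟩ := c.intAt_elts κ'
  have hr : ∀ b, c.rho b ∈ intAt (G := G) κ' := fun b =>
    mul_mem (pow_mem (hd b) _) (pow_mem hT _)
  have hs : ∀ b, c.sig b ∈ intAt (G := G) κ' := fun b =>
    mul_mem (mul_mem (hd _) (pow_mem (hd b) _)) (pow_mem hT _)
  rcases κ with _ | b
  · exact mul_mem (hr _) (hr _)
  · exact mul_mem (hr _) (sub_mem (hr _) (hs _))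

theorem red_sel {κ κ' : Option Bool} (hne : κ' ≠ κ) :
    c.sel κ ∈ G.V κ' ∧ G.red κ' (c.sel κ) = 0 := by
  obtain ⟨hd, hT⟩ := c.intAt_elts κ'
  obtain ⟨hV, e⟩ := red_eq_redI ⟨_, c.sel_intAt κ κ'⟩
  refine ⟨hV, ?_⟩
  rw [e]
  let D : Bool → intAt (G := G) κ' := fun b => ⟨_, hd b⟩
  let T : intAt (G := G) κ' := ⟨_, hT⟩
  have hD : ∀ b, redI G κ' (D b) =
      X.redS ⟨discFam X M₁ ((kindPair κ').line b), (X.discFam_mem_goodSer M₁ _).1⟩ := fun b =>
    congrArg X.redS (Subtype.ext (G.emb_gen _ _ _ _))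
  have hzero : ∀ b, (kindPair (q := q) κ').line b = none → redI G κ' (D b) = 0 := by
    intro b hb
    rw [hD]
    simp only [hb]
    exact X.redS_discFam_none M₁
  have heq : ∀ b, (kindPair (q := q) κ').line b ≠ none → (kindPair (q := q) κ').line (!b) ≠ none →
      redI G κ' (D (!b)) = redI G κ' (D b) := by
    intro b h1 h2
    obtain ⟨d, hd⟩ := Option.ne_none_iff_exists'.mp h1
    obtain ⟨d', hd'⟩ := Option.ne_none_iff_exists'.mp h2
    rw [hD, hD]
    simp only [hd, hd']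
    exact redS_disc_eq (q := q) (X := X) (M₁ := M₁) d' d
  rcases κ with _ | b
  · obtain ⟨b, hb⟩ : ∃ b, κ' = some b := Option.ne_none_iff_exists'.mp hne
    subst hb
    have hl : (kindPair (q := q) (some b)).line b = none :=
      (kindOf_eq_some_iff _ b).mp (kindOf_kindPair _)
    have hz := hzero b hl
    show redI G (some b) ((D true ^ q * T ^ c.tauPow) * (D false ^ q * T ^ c.tauPow)) = 0
    cases b <;> simp [hz, zero_pow X.prime.ne_zero]
  · show redI G κ' ((D (!b) ^ q * T ^ c.tauPow) *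
      (D (!b) ^ q * T ^ c.tauPow - D (!!b) * D (!b) ^ (q - 1) * T ^ c.tauPow)) = 0
    by_cases hl : (kindPair (q := q) κ').line (!b) = none
    · simp [hzero _ hl, zero_pow X.prime.ne_zero]
    · have hb2 : (kindPair (q := q) κ').line (!!b) ≠ none := by
        rw [Bool.not_not]
        intro h
        exact hne (by rw [← kindOf_kindPair (q := q) κ', (kindOf_eq_some_iff _ b).mpr h])
      rw [map_mul, map_sub, map_mul, map_mul, map_mul, map_pow, map_pow, map_pow, heq _ hl hb2]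
      rw [mul_pow_sub_one X.prime.ne_zero, sub_self, mul_zero]

end CuspPt

end Model

end FLTAgent.CarayolSquare
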