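import Fermat.Agent.CarayolSquare.Cusps.CuspLocal
import Fermat.Agent.CarayolSquare.Cusps.Coeff

/-!
# Functions built from translates at a cusp

Functions separating the three components at a cusp, made of the translates of `d` and of the
parameter of the cusp (`rho`, `sig`, `mel`, `parUnit`), with their expansions at all pairs.
Used in `Cusps.CuspComp`.
-/

set_option autoImplicit false

noncomputable section

open ModularCurve FLTAgent.LevelM

namespace FLTAgent.CarayolSquare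

local notation "Qbar" => AlgebraicClosure ℚ

variable {q : ℕ} [NeZero q] [Fact q.Prime]

namespace Ctx

variable (X : Ctx q)

omit [NeZero q] [Fact (Nat.Prime q)] in
theorem scale_mem_posInt (b : ZMod q) {s : Ser} (hs : s ∈ X.posInt) :
    X.sub (some b) s ∈ X.posInt :=
  X.posInt_of (X.sub_some_mem_intSer b (X.intSer_of_posInt hs)) fun n hn => by
    show (Igusa.scale (X.zetaU b) s).coeff n = 0
    rw [Igusa.coeff_scale, X.noPole_of_posInt hs n hn, mul_zero]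

omit [NeZero q] [Fact (Nat.Prime q)] in
theorem coeff_scale_zero (b : ZMod q) (s : Ser) : (X.sub (some b) s).coeff 0 = s.coeff 0 := by
  show (Igusa.scale (X.zetaU b) s).coeff 0 = _
  rw [Igusa.coeff_scale, zpow_zero, Units.val_one, one_mul]

/-- Powers of `t`. -/
abbrev tpow (n : ℤ) : Ser := HahnSeries.single n 1

theorem tpow_add (n m : ℤ) : Ctx.tpow n * Ctx.tpow m = Ctx.tpow (n + m) := by
  rw [tpow, tpow, HahnSeries.single_mul_single, one_mul]

omit [NeZero q] [Fact (Nat.Prime q)] in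
theorem tpow_mem_posInt {n : ℤ} (hn : 0 ≤ n) : Ctx.tpow n ∈ X.posInt := by
  obtain ⟨j, rfl⟩ := Int.eq_ofNat_of_zero_le hn
  exact X.single_mem_posInt j

omit [Fact (Nat.Prime q)] in
theorem up_tpow (n : ℤ) : X.up (Ctx.tpow n) = Ctx.tpow ((q : ℤ) * n) := qExpand_single q n 1

omit [NeZero q] [Fact (Nat.Prime q)] in
theorem sub_some_tpow (b : ZMod q) (n : ℤ) :
    X.sub (some b) (Ctx.tpow n) = HahnSeries.single n ((X.ζ ^ b.val) ^ n) := by
  show Igusa.scale (X.zetaU b) _ = _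
  rw [tpow, Igusa.scale_single, mul_one, Units.val_zpow_eq_zpow_val]
  rfl

omit [NeZero q] [Fact (Nat.Prime q)] in
theorem exists_eq_tpow_mul {s : Ser} (hs : s ∈ X.posInt) (h : s.coeff 0 = 0) :
    ∃ t : X.posInt, s = Ctx.tpow 1 * (t : Ser) ∧ (t : Ser).coeff 0 = s.coeff 1 := by
  have e : ∀ n : ℤ, (Ctx.tpow (-1) * s).coeff n = s.coeff (n + 1) := fun n => by
    rw [show n = (n + 1) + (-1) by ring, HahnSeries.coeff_single_mul_add, one_mul]
    congr 1
    ring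
  refine ⟨⟨Ctx.tpow (-1) * s, X.posInt_of (fun n => ?_) fun n hn => ?_⟩, ?_, e 0⟩
  · rw [e]; exact X.intSer_of_posInt hs _
  · rw [e]
    rcases lt_or_eq_of_le (show n + 1 ≤ 0 by omega) with h1 | h1
    · exact X.noPole_of_posInt hs _ h1
    · rw [h1, h]
  · rw [← mul_assoc, tpow_add, add_neg_cancel]
    simp [tpow]

omit [NeZero q] [Fact (Nat.Prime q)] in
theorem exists_eq_tpow_mul_of_unitOrder {s : Ser} (hs : s ∈ X.intSer) (h : X.UnitOrder s 1) :
    ∃ t : X.posInt, s = Ctx.tpow 1 * (t : Ser) ∧ (t : Ser).coeff 0 = s.coeff 1 :=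
  X.exists_eq_tpow_mul (X.posInt_of hs fun n hn => h.1 n (by omega)) (h.1 0 one_pos)

omit [NeZero q] [Fact (Nat.Prime q)] in
theorem pos0_eq {s : X.posInt} {a : X.A} (h : (s : Ser).coeff 0 = (a : Qbar)) : X.pos0 s = a :=
  Subtype.ext h

omit [Fact (Nat.Prime q)] in
theorem valuation_sub_le {μ ν ξ : Qbar} (hξ : IsPrimitiveRoot ξ q) (hμ : μ ^ q = 1)
    (hν : ν ^ q = 1) : X.A.valuation (μ - ν) ≤ X.A.valuation (1 - ξ) := by
  have hv : ∀ {z : Qbar}, z ^ q = 1 → X.A.valuation z = 1 := fun hz =>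
    (pow_eq_one_iff_left X.prime.ne_zero).mp (by rw [← map_pow, hz, map_one])
  have hν0 : ν ≠ 0 := fun h => by rw [h, zero_pow X.prime.ne_zero] at hν; exact zero_ne_one hν
  rcases eq_or_ne μ ν with rfl | hne
  · rw [sub_self, map_zero]; exact zero_le
  have hpr : IsPrimitiveRoot (μ / ν) q := by
    refine IsPrimitiveRoot.iff_orderOf.mpr ?_
    have h1 : (μ / ν) ^ q = 1 := by rw [div_pow, hμ, hν, div_one]
    rcases (Nat.dvd_prime X.prime).mp (orderOf_dvd_of_pow_eq_one h1) with h | h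
    · exact absurd (orderOf_eq_one_iff.mp h) fun h2 => hne ((div_eq_one_iff_eq hν0).mp h2)
    · exact h
  rw [show μ - ν = -(ν * (1 - μ / ν)) by
      field_simp; ring, Valuation.map_neg, map_mul, hv hν, one_mul]
  exact X.valuation_one_sub_eq hpr hξ

/-- The unit part of `Δ`. -/
def discUnit : PowerSeries X.A := dedekindEtaUnit.map (Int.castRingHom X.A)

/-- The unit part of `1/Δ`. -/
def discUnitInv : PowerSeries X.A := dedekindEtaUnitInv.map (Int.castRingHom X.A)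

omit [NeZero q] [Fact (Nat.Prime q)] in
theorem discSeries_eq :
    Igusa.discSeries Qbar = Ctx.tpow 1 * X.ofA X.discUnit ∧
      Igusa.discInvSeries Qbar = Ctx.tpow (-1) * X.ofA X.discUnitInv := by
  have key : ∀ F : PowerSeries ℤ,
      X.ofA (F.map (Int.castRingHom X.A)) =
        HahnSeries.ofPowerSeries ℤ Qbar (F.map (Int.castRingHom Qbar)) := fun F => by
    rw [ofA, RingHom.comp_apply]
    congr 1
  exact ⟨by rw [discUnit, key]; rfl, by rw [discUnitInv, key]; rfl⟩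

/-- `Δ (M₁ ·)` without its leading monomial. -/
def discLead (M₁ : ℕ) [NeZero M₁] : Ser := qExpand Qbar M₁ (X.ofA X.discUnit)

/-- `1/Δ (M₁ ·)` without its leading monomial. -/
def discLeadInv (M₁ : ℕ) [NeZero M₁] : Ser := qExpand Qbar M₁ (X.ofA X.discUnitInv)

omit [NeZero q] [Fact (Nat.Prime q)] in
theorem qExpand_ofA_spec (M₁ : ℕ) [NeZero M₁] (F : PowerSeries ℤ)
    (hF : PowerSeries.constantCoeff F = 1) :
    qExpand Qbar M₁ (X.ofA (F.map (Int.castRingHom X.A))) ∈ X.posInt ∧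
      (qExpand Qbar M₁ (X.ofA (F.map (Int.castRingHom X.A)))).coeff 0 = 1 := by
  set s := X.ofA (F.map (Int.castRingHom X.A))
  have hs : s ∈ X.posInt := ⟨_, rfl⟩
  refine ⟨X.posInt_of (fun n => ?_) fun n hn => ?_, ?_⟩
  · by_cases hd : (M₁ : ℤ) ∣ n
    · obtain ⟨i, rfl⟩ := hd
      rw [qExpand_coeff_mul]; exact X.intSer_of_posInt hs i
    · rw [qExpand_coeff_of_not_dvd _ _ hd]; exact X.A.zero_mem
  · by_cases hd : (M₁ : ℤ) ∣ n
    · obtain ⟨i, rfl⟩ := hd
      have hM : (0 : ℤ) < M₁ := by exact_mod_cast NeZero.pos M₁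
      rw [qExpand_coeff_mul]; exact X.noPole_of_posInt hs i (by nlinarith)
    · exact qExpand_coeff_of_not_dvd _ _ hd
  · have h := qExpand_coeff_mul M₁ s 0
    rw [mul_zero] at h
    rw [h, show (0 : ℤ) = ((0 : ℕ) : ℤ) from rfl, X.coeff_ofA_nat, PowerSeries.coeff_map,
      PowerSeries.coeff_zero_eq_constantCoeff_apply, hF, map_one]
    rfl

omit [NeZero q] [Fact (Nat.Prime q)] in
theorem discLead_spec (M₁ : ℕ) [NeZero M₁] :
    X.discLead M₁ ∈ X.posInt ∧ (X.discLead M₁).coeff 0 = 1 :=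
  X.qExpand_ofA_spec M₁ _ constantCoeff_dedekindEtaUnit

omit [NeZero q] [Fact (Nat.Prime q)] in
theorem discLeadInv_spec (M₁ : ℕ) [NeZero M₁] :
    X.discLeadInv M₁ ∈ X.posInt ∧ (X.discLeadInv M₁).coeff 0 = 1 :=
  X.qExpand_ofA_spec M₁ _ constantCoeff_dedekindEtaUnitInv

omit [NeZero q] [Fact (Nat.Prime q)] in
theorem qExpand_disc (M₁ : ℕ) [NeZero M₁] :
    qExpand Qbar M₁ (Igusa.discSeries Qbar) = Ctx.tpow M₁ * X.discLead M₁ ∧
      qExpand Qbar M₁ (Igusa.discInvSeries Qbar) = Ctx.tpow (-(M₁ : ℤ)) * X.discLeadInv M₁ := by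
  rw [X.discSeries_eq.1, X.discSeries_eq.2, map_mul, map_mul]
  constructor
  · show qExpand Qbar M₁ (HahnSeries.single 1 1) * qExpand Qbar M₁ _ = _
    rw [qExpand_single, mul_one]
    rfl
  · show qExpand Qbar M₁ (HahnSeries.single (-1) 1) * qExpand Qbar M₁ _ = _
    rw [qExpand_single, mul_neg, mul_one]
    rfl

/-- A root of unity as an integral power series. -/
def zetaConst (M₁ : ℕ) (b : ZMod q) : X.posInt :=
  ⟨HahnSeries.C ((X.ζ ^ b.val) ^ M₁), X.posInt_of (fun n => by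
    rw [HahnSeries.C_apply, HahnSeries.coeff_single]
    split
    · exact pow_mem (pow_mem X.ζ_mem_A _) _
    · exact X.A.zero_mem) fun n hn => by
          rw [HahnSeries.C_apply, HahnSeries.coeff_single_of_ne hn.ne]⟩

omit [NeZero q] [Fact (Nat.Prime q)] in
theorem coe_zetaConst (M₁ : ℕ) (b : ZMod q) :
    (X.zetaConst M₁ b : Ser) = HahnSeries.C ((X.ζ ^ b.val) ^ M₁) := rfl

/-- `discFam` on an affine line without its leading monomial. -/
def famUnit (M₁ : ℕ) [NeZero M₁] (b : ZMod q) : X.posInt :=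
  ⟨X.sub (some b) (X.discLead M₁) * X.up (X.discLeadInv M₁),
    mul_mem (X.scale_mem_posInt b (X.discLead_spec M₁).1)
        (X.up_mem_posInt (X.discLeadInv_spec M₁).1)⟩

omit [Fact (Nat.Prime q)] in
theorem famUnit_coeff_zero (M₁ : ℕ) [NeZero M₁] (b : ZMod q) :
    X.pos0 (X.famUnit M₁ b) = 1 := by
  rw [show X.famUnit M₁ b = ⟨_, X.scale_mem_posInt b (X.discLead_spec M₁).1⟩ *
    ⟨_, X.up_mem_posInt (X.discLeadInv_spec M₁).1⟩ from rfl, map_mul,
    X.pos0_eq (a := 1) ((X.coeff_scale_zero b _).trans (X.discLead_spec M₁).2),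
    X.pos0_eq (a := 1) ((X.coeff_up_zero _).trans (X.discLeadInv_spec M₁).2), one_mul]

omit [Fact (Nat.Prime q)] in
theorem discFam_some_eq (M₁ : ℕ) [NeZero M₁] (b : ZMod q) :
    discFam X M₁ (some b) =
      HahnSeries.C ((X.ζ ^ b.val) ^ M₁) * Ctx.tpow ((M₁ : ℤ) - (q : ℤ) * M₁) *
          (X.famUnit M₁ b : Ser) := by
  have e : ((X.famUnit M₁ b : X.posInt) : Ser) =
      X.sub (some b) (X.discLead M₁) * X.up (X.discLeadInv M₁) := rfl
  rw [discFam, (X.qExpand_disc M₁).1, (X.qExpand_disc M₁).2, map_mul, map_mul, X.sub_some_tpow,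
    X.up_tpow, zpow_natCast, mul_mul_mul_comm, e, tpow, HahnSeries.single_mul_single,
    HahnSeries.C_apply, tpow, HahnSeries.single_mul_single]
  simp only [mul_one, zero_add, mul_neg, ← sub_eq_add_neg]

omit [Fact (Nat.Prime q)] in
theorem exists_discFam_none (M₁ : ℕ) [NeZero M₁] : ∃ W : X.posInt,
    discFam X M₁ none =
      (q : Ser) ^ 12 * (Ctx.tpow ((q : ℤ) * (q * M₁) - (q : ℤ) * M₁) * (W : Ser)) := by
  refine ⟨⟨X.up (X.up (X.discLead M₁)) * X.up (X.discLeadInv M₁),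
    mul_mem (X.up_mem_posInt (X.up_mem_posInt (X.discLead_spec M₁).1))
      (X.up_mem_posInt (X.discLeadInv_spec M₁).1)⟩, ?_⟩
  have e : X.sub (none : Line q) = X.up.comp X.up := rfl
  rw [discFam, (X.qExpand_disc M₁).1, (X.qExpand_disc M₁).2, e, RingHom.comp_apply, map_mul,
    map_mul, map_mul, X.up_tpow, X.up_tpow, X.up_tpow, mul_mul_mul_comm, tpow_add, mul_neg,
    ← sub_eq_add_neg]

end Ctx

namespace Model

variable {X : Ctx q} {M₁ : ℕ} [NeZero M₁] {G : Model X M₁}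

namespace CuspPt

variable (c : G.CuspPt)

/-- The exponent of the parameter. -/
def tauPow (_c : G.CuspPt) : ℕ := M₁ * (q - 1)

/-- `d_b ^ q T ^ (M₁ (q - 1))`. -/
def rho (b : Bool) : G.splitField :=
  G.gen b .disc ^ q * G.baseHom c.τ ^ c.tauPow

/-- `d_{!b} d_b ^ (q - 1) T ^ (M₁ (q - 1))`. -/
def sig (b : Bool) : G.splitField :=
  G.gen (!b) .disc * G.gen b .disc ^ (q - 1) * G.baseHom c.τ ^ c.tauPow

/-- The difference of `rho` and `sig`. -/
def mel (b : Bool) : G.splitField := c.rho b - c.sig b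

omit [Fact (Nat.Prime q)] [NeZero q] in
theorem exists_paramUnit : ∃ U : X.posInt, G.cs c.δ c.τ = Ctx.tpow 1 * (U : Ser) ∧
    (U : Ser).coeff 0 = (G.cs c.δ c.τ).coeff 1 :=
  X.exists_eq_tpow_mul_of_unitOrder (X.intSer_of_posInt (c.pos c.τ)) c.τ_order

/-- The expansion of the power of the parameter, without its monomial. -/
def parUnit : X.posInt :=
  ⟨X.up (c.exists_paramUnit.choose : Ser), X.up_mem_posInt c.exists_paramUnit.choose.2⟩ ^ c.tauPow

/-- The leading coefficient of the power of the parameter. -/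
def lead : X.O := (G.cs_coeff c.δ c.τ 1).choose ^ c.tauPow

omit [Fact (Nat.Prime q)] in
theorem pos0_parUnit : (X.pos0 c.parUnit : Qbar) = algebraMap X.K Qbar (c.lead : X.K) := by
  rw [parUnit, lead, map_pow]
  push_cast
  rw [X.coe_pos0]
  congr 1
  rw [X.coeff_up_zero, c.exists_paramUnit.choose_spec.2]
  exact (G.cs_coeff c.δ c.τ 1).choose_spec.symm

omit [Fact (Nat.Prime q)] [NeZero q] in
theorem isUnit_lead : IsUnit c.lead := by
  refine IsUnit.pow _ ((X.isUnit_iff_valuation _).mpr ?_)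
  rw [(G.cs_coeff c.δ c.τ 1).choose_spec]
  exact c.τ_order.2

omit [Fact (Nat.Prime q)] in
theorem emb_tau_pow (P' : Pair q) :
    G.emb c.δ P' (G.baseHom c.τ ^ c.tauPow) =
      Ctx.tpow ((q : ℤ) * c.tauPow) * (c.parUnit : Ser) := by
  rw [map_pow, G.emb_baseHom, c.exists_paramUnit.choose_spec.1, map_mul, mul_pow, X.up_tpow,
    mul_one, parUnit, Ctx.tpow, HahnSeries.single_pow, one_pow, nsmul_eq_mul, mul_comm (q : ℤ)]
  rfl

omit [Fact (Nat.Prime q)] in
theorem cast_tauPow : (c.tauPow : ℤ) = (M₁ : ℤ) * ((q : ℤ) - 1) := by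
  rw [tauPow]; push_cast [Nat.cast_sub (NeZero.one_le : 1 ≤ q)]; ring

omit [NeZero q] [Fact (Nat.Prime q)] in
theorem zeta_pow_pow (X : Ctx q) (b : ZMod q) (n : ℕ) : ((X.ζ ^ b.val) ^ n) ^ q = 1 := by
  rw [pow_right_comm, pow_right_comm X.ζ, X.hζ.pow_eq_one, one_pow, one_pow]

omit [Fact (Nat.Prime q)] in
theorem emb_rho_some {P' : Pair q} {b : Bool} {d : ZMod q} (h : P'.line b = some d) :
    G.emb c.δ P' (c.rho b) = ((X.famUnit M₁ d ^ q * c.parUnit : X.posInt) : Ser) := by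
  rw [rho, map_mul, c.emb_tau_pow, map_pow, G.emb_gen, h]
  show discFam X M₁ (some d) ^ q * _ = _
  rw [X.discFam_some_eq, mul_pow, mul_pow, ← map_pow, zeta_pow_pow, map_one, one_mul, Ctx.tpow,
    HahnSeries.single_pow, one_pow, nsmul_eq_mul]
  push_cast
  rw [mul_mul_mul_comm, ← Ctx.tpow, Ctx.tpow_add, c.cast_tauPow,
    show (q : ℤ) * ((M₁ : ℤ) - (q : ℤ) * M₁) + (q : ℤ) * ((M₁ : ℤ) * ((q : ℤ) - 1)) = 0 by ring]
  simp [Ctx.tpow]

/-- The expansion is `q` times an integral power series. -/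
def QMul (X : Ctx q) (s : Ser) : Prop := ∃ W : X.posInt, s = (((q : X.posInt) * W : X.posInt) : Ser)

omit [NeZero q] [Fact (Nat.Prime q)] in
theorem qMul_of {n : ℕ} (hn : 0 < n) {i : ℤ} (hi : 0 ≤ i) (W : X.posInt) {s : Ser}
    (h : s = (q : Ser) ^ n * (Ctx.tpow i * (W : Ser))) : QMul X s := by
  obtain ⟨j, rfl⟩ := Nat.exists_eq_add_of_le hn
  refine ⟨(q : X.posInt) ^ j * (⟨_, X.tpow_mem_posInt hi⟩ * W), ?_⟩
  rw [h]
  push_cast
  rw [pow_add, pow_one, mul_assoc]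

omit [Fact (Nat.Prime q)] in
theorem emb_rho_none {P' : Pair q} {b : Bool} (h : P'.line b = none) :
    QMul X (G.emb c.δ P' (c.rho b)) := by
  obtain ⟨W, hW⟩ := X.exists_discFam_none M₁
  refine qMul_of (n := 12 * q) (Nat.mul_pos (by norm_num) X.prime.pos)
    (i := (q : ℤ) * ((q : ℤ) * (q * M₁) - (q : ℤ) * M₁) + (q : ℤ) * c.tauPow) ?_
        (W ^ q * c.parUnit) ?_
  · have h1 : (1 : ℤ) ≤ q := by exact_mod_cast X.prime.one_le
    have h2 : (q : ℤ) * M₁ ≤ (q : ℤ) * (q * M₁) := le_mul_of_one_le_left (by positivity) h1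
    have h3 : (0 : ℤ) ≤ (q : ℤ) * ((q : ℤ) * (q * M₁) - (q : ℤ) * M₁) :=
      mul_nonneg (by positivity) (sub_nonneg.mpr h2)
    positivity
  · rw [rho, map_mul, c.emb_tau_pow, map_pow, G.emb_gen, h]
    show discFam X M₁ none ^ q * _ = _
    rw [hW, mul_pow, mul_pow, ← pow_mul, Ctx.tpow, HahnSeries.single_pow, one_pow, nsmul_eq_mul]
    push_cast
    rw [← Ctx.tpow, ← Ctx.tpow_add]
    ring

omit [Fact (Nat.Prime q)] in
theorem emb_sig_none {P' : Pair q} {b : Bool} (h : P'.line b = none ∨ P'.line (!b) = none) :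
    QMul X (G.emb c.δ P' (c.sig b)) := by
  obtain ⟨W, hW⟩ := X.exists_discFam_none M₁
  have hline : P'.line b ≠ P'.line (!b) := by
    obtain ⟨⟨A, B⟩, hAB⟩ := P'
    cases b
    · exact Ne.symm hAB
    · exact hAB
  have h1 : (1 : ℤ) ≤ q := by exact_mod_cast X.prime.one_le
  have h2 : (2 : ℤ) ≤ q := by exact_mod_cast X.prime.two_le
  have hM : (0 : ℤ) ≤ (M₁ : ℤ) := by positivity
  rw [sig, map_mul, map_mul, c.emb_tau_pow, map_pow, G.emb_gen, G.emb_gen]
  rcases h with h | h <;> rw [h] at hline ⊢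
  · obtain ⟨d, hd⟩ := Option.ne_none_iff_exists'.mp hline.symm
    rw [hd]
    refine qMul_of (n := 12 * (q - 1))
        (Nat.mul_pos (by norm_num) (by have := X.prime.two_le; omega))
      (i := ((M₁ : ℤ) - (q : ℤ) * M₁) + (((q - 1 : ℕ) : ℤ) * ((q : ℤ) * (q * M₁) - (q : ℤ) * M₁) +
        (q : ℤ) * c.tauPow)) ?_
      (X.zetaConst M₁ d * X.famUnit M₁ d * W ^ (q - 1) * c.parUnit) ?_
    · rw [c.cast_tauPow, Nat.cast_sub (NeZero.one_le : 1 ≤ q), Nat.cast_one,
        show ((M₁ : ℤ) - (q : ℤ) * M₁) + (((q : ℤ) - 1) * ((q : ℤ) * (q * M₁) - (q : ℤ) * M₁) +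
          (q : ℤ) * ((M₁ : ℤ) * ((q : ℤ) - 1))) = (M₁ : ℤ) * ((q : ℤ) - 1) *
              ((q : ℤ) * q - 1) by ring]
      exact mul_nonneg (mul_nonneg hM (by linarith)) (by nlinarith)
    · show discFam X M₁ (some d) * discFam X M₁ none ^ (q - 1) * _ = _
      rw [hW, X.discFam_some_eq, mul_pow, mul_pow, ← pow_mul,
        show Ctx.tpow ((q : ℤ) * (q * M₁) - (q : ℤ) * M₁) ^ (q - 1) =
          Ctx.tpow (((q - 1 : ℕ) : ℤ) * ((q : ℤ) * (q * M₁) - (q : ℤ) * M₁)) by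
          rw [Ctx.tpow, HahnSeries.single_pow, one_pow, nsmul_eq_mul]]
      push_cast
      rw [X.coe_zetaConst, ← Ctx.tpow_add, ← Ctx.tpow_add]
      ring
  · obtain ⟨d, hd⟩ := Option.ne_none_iff_exists'.mp hline
    rw [hd]
    refine qMul_of (n := 12) (by norm_num)
      (i := ((q : ℤ) * (q * M₁) - (q : ℤ) * M₁) + (((q - 1 : ℕ) : ℤ) * ((M₁ : ℤ) - (q : ℤ) * M₁) +
        (q : ℤ) * c.tauPow)) ?_
      (W * X.zetaConst M₁ d ^ (q - 1) * X.famUnit M₁ d ^ (q - 1) * c.parUnit) ?_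
    · rw [c.cast_tauPow, Nat.cast_sub (NeZero.one_le : 1 ≤ q), Nat.cast_one,
        show ((q : ℤ) * (q * M₁) - (q : ℤ) * M₁) + (((q : ℤ) - 1) * ((M₁ : ℤ) - (q : ℤ) * M₁) +
          (q : ℤ) * ((M₁ : ℤ) * ((q : ℤ) - 1))) = (M₁ : ℤ) * ((q : ℤ) - 1) * ((q : ℤ) + 1) by ring]
      exact mul_nonneg (mul_nonneg hM (by linarith)) (by linarith)
    · show discFam X M₁ none * discFam X M₁ (some d) ^ (q - 1) * _ = _
      rw [hW, X.discFam_some_eq, mul_pow, mul_pow,
        show Ctx.tpow ((M₁ : ℤ) - (q : ℤ) * M₁) ^ (q - 1) =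
          Ctx.tpow (((q - 1 : ℕ) : ℤ) * ((M₁ : ℤ) - (q : ℤ) * M₁)) by
          rw [Ctx.tpow, HahnSeries.single_pow, one_pow, nsmul_eq_mul]]
      push_cast
      rw [X.coe_zetaConst, ← Ctx.tpow_add, ← Ctx.tpow_add]
      ring

omit [NeZero q] [Fact (Nat.Prime q)] in
theorem qMul_mem {s : Ser} (h : QMul X s) :
    ∃ hs : s ∈ X.posInt, X.pos0k ⟨s, hs⟩ = 0 := by
  obtain ⟨W, rfl⟩ := h
  exact ⟨Subtype.coe_prop _, by rw [Subtype.coe_eta, map_mul, map_natCast, X.natCast_k, zero_mul]⟩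

end CuspPt

end Model

end FLTAgent.CarayolSquare
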