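import Fermat.Agent.CarayolSquare.Cusps.CuspBase

/-!
# The split cover over a cusp

A function with integral expansions along all pairs lies in the local rings of the chart over the
cusp (`exists_mul_mem`), and its values there are constant terms (`φ_eq_zero_of_series`).
-/

set_option autoImplicit false

noncomputable section

open ModularCurve Polynomial

namespace FLTAgent.CarayolSquare

local notation "Qbar" => AlgebraicClosure ℚ

/-- The numerator of the `i`-th coefficient of a cleared equation. -/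
def clearCoeff {R : Type*} [CommRing R] (d : ℕ) (s r : ℕ → R) (i : ℕ) : R :=
  (∏ l ∈ Finset.range d, s l) ^ (d - i - 1) * (∏ l ∈ (Finset.range d).erase i, s l) * r i

theorem map_clearCoeff {R k : Type*} [CommRing R] [CommRing k] (φ : R →+* k) {d : ℕ} {s r : ℕ → R}
    {i : ℕ} (h : φ (r i) = 0) : φ (clearCoeff d s r i) = 0 := by
  rw [clearCoeff, map_mul, h, mul_zero]

/-- Clearing the denominators of an equation. -/
theorem clearCoeff_spec {R F : Type*} [CommRing R] [CommRing F] [IsDomain F] (ι : R →+* F) {d : ℕ}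
    {A : ℕ → F} {z : F} (hroot : ∑ i ∈ Finset.range (d + 1), A i * z ^ i = 0) (hd : A d ≠ 0)
    {s r : ℕ → R} (h : ∀ i < d, ι (s i) * A i = ι (r i) * A d) :
    (ι (∏ l ∈ Finset.range d, s l) * z) ^ d + ∑ i ∈ Finset.range d,
      ι (clearCoeff d s r i) * (ι (∏ l ∈ Finset.range d, s l) * z) ^ i = 0 := by
  classical
  set S := ∏ l ∈ Finset.range d, s l with hS
  refine (mul_eq_zero.mp ?_).resolve_left hd
  have : (∑ i ∈ Finset.range d, A d * (ι (clearCoeff d s r i) * (ι S * z) ^ i)) =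
      ι S ^ d * ∑ i ∈ Finset.range d, A i * z ^ i := by
    rw [Finset.mul_sum]
    refine Finset.sum_congr rfl fun i hi => ?_
    have hi' := Finset.mem_range.mp hi
    have hSi : ι S = ι (s i) * ι (∏ l ∈ (Finset.range d).erase i, s l) := by
      rw [← map_mul, hS, Finset.mul_prod_erase _ _ hi]
    rw [clearCoeff, map_mul, map_mul, map_pow, ← hS, mul_pow]
    obtain ⟨e, he⟩ : ∃ e, d = e + 1 + i := ⟨d - i - 1, by omega⟩
    rw [show d - i - 1 = e by omega, show ι S ^ d = ι S ^ e * ι S * ι S ^ i by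
      rw [he, pow_add, pow_succ]]
    linear_combination (-(ι S ^ e * ι (∏ l ∈ (Finset.range d).erase i, s l) * ι S ^ i * z ^ i)) *
      h i hi' + (-(ι S ^ e * ι S ^ i * z ^ i * A i)) * hSi
  rw [mul_add, Finset.mul_sum, this, mul_pow]
  rw [Finset.sum_range_succ] at hroot
  linear_combination ι S ^ d * hroot

variable {q : ℕ} [NeZero q] [Fact q.Prime]

namespace Ctx

variable (X : Ctx q)

omit [Fact (Nat.Prime q)] in
theorem up_mem_posInt {s : Ser} (hs : s ∈ X.posInt) : X.up s ∈ X.posInt := by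
  refine X.posInt_of (X.up_mem_intSer (X.intSer_of_posInt hs)) fun n hn => ?_
  by_cases hdvd : (q : ℤ) ∣ n
  · obtain ⟨i, rfl⟩ := hdvd
    rw [show (X.up s).coeff ((q : ℤ) * i) = s.coeff i from qExpand_coeff_mul q s i]
    have hq : (0 : ℤ) < q := by exact_mod_cast X.prime.pos
    exact X.noPole_of_posInt hs i (by nlinarith)
  · exact qExpand_coeff_of_not_dvd q s hdvd

omit [Fact (Nat.Prime q)] in
theorem posInt_of_up {s : Ser} (hs : X.up s ∈ X.posInt) : s ∈ X.posInt := by
  have e : ∀ i, (X.up s).coeff ((q : ℤ) * i) = s.coeff i := qExpand_coeff_mul q s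
  exact X.posInt_of (fun i => e i ▸ X.intSer_of_posInt hs _) fun i hi =>
    e i ▸ X.noPole_of_posInt hs _ (mul_neg_of_pos_of_neg (by exact_mod_cast X.prime.pos) hi)

omit [Fact (Nat.Prime q)] in
theorem coeff_up_zero (s : Ser) : (X.up s).coeff 0 = s.coeff 0 := by
  have h := qExpand_coeff_mul q s 0
  rw [mul_zero] at h
  exact h

omit [Fact (Nat.Prime q)] in
theorem pos0k_up {s : Ser} (hs : s ∈ X.posInt) :
    X.pos0k ⟨X.up s, X.up_mem_posInt hs⟩ = X.pos0k ⟨s, hs⟩ :=
  congrArg (IsLocalRing.residue X.A) (Subtype.ext (X.coeff_up_zero s))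

omit [NeZero q] [Fact (Nat.Prime q)] in
theorem coeffInO_of_quot {a b g : Ser} (ha : X.CoeffInO a) (hb : X.CoeffInO b) (hb0 : b ≠ 0)
    (hg : g * b = a) (hgA : g ∈ X.intSer) : X.CoeffInO g := by
  have key : ∀ s : Ser, X.CoeffInO s → s ∈ (coeffMap (algebraMap X.K Qbar)).range := by
    intro s hs
    choose o ho using hs
    refine ⟨{ coeff := fun n => ((o n : X.O) : X.K)
              isPWO_support' := s.isPWO_support'.mono fun n hn h0 => hn ?_ },
      HahnSeries.ext (funext ho)⟩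
    exact (algebraMap X.K Qbar).injective (by rw [map_zero, ho]; exact h0)
  obtain ⟨a', ha'⟩ := key a ha
  obtain ⟨b', hb'⟩ := key b hb
  have hg' : g = coeffMap (algebraMap X.K Qbar) (a' / b') := by
    rw [map_div₀, ha', hb', ← hg, mul_div_cancel_right₀ g hb0]
  intro n
  have hn : g.coeff n = algebraMap X.K Qbar ((a' / b').coeff n) := by rw [hg', coeffMap_coeff]
  exact ⟨⟨(a' / b').coeff n, show algebraMap X.K Qbar _ ∈ X.A from hn ▸ hgA n⟩, hn.symm⟩

end Ctx

namespace Model

variable {X : Ctx q} {M₁ : ℕ} [NeZero M₁] {G : Model X M₁}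

namespace CuspPt

variable (c : G.CuspPt)

omit [Fact (Nat.Prime q)] [NeZero q] in
theorem baseHom_mem (z : c.Bc) : G.baseHom z ∈ c.B := (G.baseInc c.hW z).2

theorem emb_mem_posInt (P' : Pair q) {z : G.splitField} (hz : z ∈ c.B) :
    G.emb c.δ P' z ∈ X.posInt := by
  obtain ⟨a, b, haL, hbL, hb0, hab⟩ := G.isBounded_emb c.δ P' z
  obtain ⟨Q, hQ, hQz⟩ := (hz : IsIntegral _ z)
  have hW' : c.W ∈ c.Bc := (mem_baseChart_iff c.hW _).mpr (subset_intSet _ rfl)
  have hle : ∀ x ∈ Algebra.adjoin X.O ({G.baseHom c.W} : Set G.splitField),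
      G.emb c.δ P' x ∈ X.posInt := by
    intro x hx
    induction hx using Algebra.adjoin_induction with
    | mem y hy =>
      rw [Set.mem_singleton_iff.mp hy, G.emb_baseHom]
      exact X.up_mem_posInt (c.pos ⟨c.W, hW'⟩)
    | algebraMap r =>
      have h : G.emb c.δ P' (algebraMap X.O G.splitField r) = algebraMap X.O Ser r :=
        (G.embO c.δ P').commutes r
      rw [h]
      exact X.algebraMap_mem_posInt r
    | add a b _ _ ha hb => rw [map_add]; exact add_mem ha hb
    | mul a b _ _ ha hb => rw [map_mul]; exact mul_mem ha hb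
  let ψ : Algebra.adjoin X.O ({G.baseHom c.W} : Set G.splitField) →+* X.posInt :=
    ((G.emb c.δ P').toRingHom.comp
      (Algebra.adjoin X.O ({G.baseHom c.W} : Set G.splitField)).val.toRingHom).codRestrict _
        fun x => hle x x.2
  refine X.mem_posInt_of_root haL hbL hb0 hab (hQ.map ψ) ?_
  rw [eval₂_map]
  have h := congrArg (G.emb c.δ P').toRingHom hQz
  rw [hom_eval₂, map_zero] at h
  exact h

/-- The expansion along a pair at the points over the cusp. -/
def series (P' : Pair q) : c.B →+* X.posInt :=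
  ((G.emb c.δ P').toRingHom.comp c.B.subtype).codRestrict _ fun z => c.emb_mem_posInt P' z.2

theorem coe_series (P' : Pair q) (z : c.B) :
    (c.series P' z : Ser) = G.emb c.δ P' (z : G.splitField) := rfl

theorem pos0k_series_base (P' : Pair q) (z : c.Bc) :
    X.pos0k (c.series P' ⟨_, c.baseHom_mem z⟩) = c.φb z := by
  rw [c.φb_eq, ← X.pos0k_up (c.pos z)]
  exact congrArg X.pos0k (Subtype.ext (G.emb_baseHom _ _ _))

omit [Fact (Nat.Prime q)] [NeZero q] in
theorem exists_clear (a : G.C) :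
    ∃ N : ℕ, (aeval c.W c.coord.E) ^ N * a ∈ c.Bc := by
  obtain ⟨N, hN⟩ := isIntegral_clear (aeval_mem_adjoin_singleton X.O c.w) c.coord.clear
    (G.isIntegral_hRing a)
  refine ⟨N, ?_⟩
  show IsIntegral _ (G.C.val (aeval c.W c.coord.E ^ N * a))
  rw [map_mul, map_pow, ← aeval_algHom_apply]
  simp only [Subalgebra.coe_val, c.hW]
  exact hN

omit [Fact (Nat.Prime q)] [NeZero q] in
theorem clear_ne_zero : aeval c.W c.coord.E ≠ 0 := by
  intro h
  have h1 := congrArg G.C.val h
  rw [← aeval_algHom_apply, map_zero] at h1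
  simp only [Subalgebra.coe_val, c.hW] at h1
  exact c.coord.not_dvd
      (by rw [c.coord.inj (h1.trans (map_zero (aeval c.w)).symm)]; exact dvd_zero _)

omit [Fact (Nat.Prime q)] [NeZero q] in
theorem coe_pow_succ_mem {e a : G.C} {N M : ℕ} (he : e ∈ c.Bc) (h : e ^ N * a ∈ c.Bc) :
    e ^ (M + N) * a ∈ c.Bc := by
  rw [pow_add, mul_assoc]; exact c.Bc.mul_mem (pow_mem he M) h

/-- A ratio of elements of `C` with integral expansion lies in the local ring of the cusp. -/
theorem exists_ratio {a D : G.C} (hD : G.cs c.δ D ≠ 0) {g : Ser} (hg : g * G.cs c.δ D = G.cs c.δ a)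
    (hgP : g ∈ X.posInt) :
    ∃ s r : c.Bc, c.φb s ≠ 0 ∧ (s : G.C) * a = (r : G.C) * D ∧
      c.φb r = c.φb s * X.pos0k ⟨g, hgP⟩ := by
  have hgO : X.CoeffInO g := X.coeffInO_of_quot (G.cs_coeff c.δ _) (G.cs_coeff c.δ _) hD hg
    (X.intSer_of_posInt hgP)
  refine (c.exists_clear a).elim fun N hN => (c.exists_clear D).elim fun M hM => ?_
  let e := aeval c.W c.coord.E
  have he : e ∈ c.Bc := by
    refine (mem_baseChart_iff c.hW _).mpr ?_
    rw [← aeval_algHom_apply]
    exact mem_intSet_of_mem_adjoin (aeval_mem_adjoin_singleton _ _)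
  have hN' : e ^ (M + N) * a ∈ c.Bc := c.coe_pow_succ_mem he hN
  have hM' : e ^ (M + N) * D ∈ c.Bc := by
    rw [add_comm M N]; exact c.coe_pow_succ_mem he hM
  have heq : G.cs c.δ ((⟨_, hN'⟩ : c.Bc) : G.C) = G.cs c.δ ((⟨_, hM'⟩ : c.Bc) : G.C) * g := by
    show G.cs c.δ (e ^ (M + N) * a) = G.cs c.δ (e ^ (M + N) * D) * g
    rw [map_mul, map_mul, mul_assoc, mul_comm _ g, hg]
  refine (c.exists_dvd hgO (X.noPole_of_posInt hgP) heq).elim fun s h' => ?_
  have hs := h'.1
  have hdvd := h'.2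
  obtain ⟨r, hr⟩ := hdvd
  have hr' : (s : G.C) * a = (r : G.C) * D := by
    refine mul_left_cancel₀ (pow_ne_zero (M + N) c.clear_ne_zero) ?_
    have h1 := congrArg Subtype.val hr
    simp only [Subring.coe_mul] at h1
    linear_combination h1
  have hser : G.cs c.δ (r : G.C) = G.cs c.δ (s : G.C) * g := by
    refine mul_right_cancel₀ hD ?_
    rw [← map_mul, ← hr', map_mul, mul_assoc, hg]
  refine ⟨s, r, hs, hr', ?_⟩
  rw [c.φb_eq r, c.φb_eq s, show (⟨G.cs c.δ (r : G.C), c.pos r⟩ : X.posInt) =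
    ⟨G.cs c.δ (s : G.C), c.pos s⟩ * ⟨g, hgP⟩ from Subtype.ext hser, map_mul]

omit [Fact (Nat.Prime q)] in
/-- The coefficients of the equation of a function over the base. -/
theorem exists_polynomial (z : G.splitField) : ∃ P : Polynomial G.C,
    G.baseHom (P.coeff (Fintype.card (Pair q))) ≠ 0 ∧
    (∑ i ∈ Finset.range (Fintype.card (Pair q) + 1), G.baseHom (P.coeff i) * z ^ i = 0) ∧
    (∀ (δ : G.Cusp), G.cs δ (P.coeff (Fintype.card (Pair q))) ≠ 0) ∧
    ∀ (δ : G.Cusp) (n : ℕ), X.up (G.cs δ (P.coeff n)) =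
      X.up (G.cs δ (P.coeff (Fintype.card (Pair q)))) *
        (∏ P' : Pair q, (Polynomial.X - Polynomial.C (G.emb δ P' z))).coeff n := by
  classical
  obtain ⟨a, b, hb, hab⟩ := G.exists_rep z.2
  obtain ⟨P, hP⟩ := G.exists_prod_descend a b
  set d := Fintype.card (Pair q) with hd
  have hprod : ∀ δ : G.Cusp, P.map (X.up.comp (G.cs δ).toRingHom) =
      Polynomial.C (∏ P' : Pair q, G.evP δ P' b) *
        ∏ P' : Pair q, (Polynomial.X - Polynomial.C (G.emb δ P' z)) := by
    intro δ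
    rw [hP, map_prod, ← Finset.prod_mul_distrib]
    refine Finset.prod_congr rfl fun P' _ => ?_
    rw [mul_sub, ← map_mul, mul_comm (G.evP δ P' b) (G.emb δ P' z), G.emb_spec δ P' z hb hab]
  have hQd : ∀ δ : G.Cusp,
      (∏ P' : Pair q, (Polynomial.X - Polynomial.C (G.emb δ P' z))).natDegree = d := fun δ => by
    rw [natDegree_prod_of_monic _ _ fun _ _ => monic_X_sub_C _]
    simp [hd]
  have hlead0 : ∀ δ : G.Cusp, (∏ P' : Pair q, G.evP δ P' b) ≠ 0 := fun δ =>
    Finset.prod_ne_zero_iff.mpr fun P' _ => G.evP_ne_zero δ P' hb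
  have hcoef : ∀ (δ : G.Cusp) (n : ℕ), X.up (G.cs δ (P.coeff n)) =
      (∏ P' : Pair q, G.evP δ P' b) *
        (∏ P' : Pair q, (Polynomial.X - Polynomial.C (G.emb δ P' z))).coeff n := by
    intro δ n
    have := congrArg (fun T => Polynomial.coeff T n) (hprod δ)
    simp only [coeff_map, coeff_C_mul, RingHom.comp_apply] at this
    exact this
  have hlead : ∀ δ : G.Cusp, X.up (G.cs δ (P.coeff d)) = ∏ P' : Pair q, G.evP δ P' b := fun δ => by
    rw [hcoef, ← hQd δ,
        (monic_prod_of_monic _ _ fun _ _ => monic_X_sub_C _).coeff_natDegree, mul_one]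
  have hne : ∀ δ : G.Cusp, G.cs δ (P.coeff d) ≠ 0 := fun δ h =>
    hlead0 δ (by rw [← hlead, h, map_zero])
  refine ⟨P, fun h => ?_, ?_, hne, fun δ n => by rw [hlead, hcoef]⟩
  · have h1 := congrArg G.valO h
    rw [G.valO_baseHom, map_zero, X.upA_apply, map_eq_zero] at h1
    exact hne G.one (by rw [G.cs_one]; exact h1)
  · refine Subtype.ext ?_
    show G.valO _ = _
    rw [map_sum]
    simp only [map_mul, map_pow, G.valO_baseHom, X.upA_apply]
    simp only [G.valO_apply]
    have h1 := congrArg (Polynomial.eval (z : Ser)) (hprod G.one)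
    rw [eval_mul, eval_prod] at h1
    have hz0 : ∏ P' : Pair q,
        eval (z : Ser) (Polynomial.X - Polynomial.C (G.emb G.one P' z)) = 0 :=
      Finset.prod_eq_zero (Finset.mem_univ (Pair.base q)) (by
        rw [eval_sub, eval_X, eval_C, G.emb_base, sub_self])
    rw [hz0, mul_zero] at h1
    have hdeg : (P.map (X.up.comp (G.cs G.one).toRingHom)).natDegree < d + 1 := by
      rw [hprod G.one]
      refine lt_of_le_of_lt (natDegree_C_mul_le _ _) ?_
      rw [hQd]
      exact Nat.lt_succ_self d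
    rw [eval_eq_sum_range' hdeg] at h1
    simp only [coeff_map, RingHom.comp_apply] at h1
    refine Eq.trans (Finset.sum_congr rfl fun i _ => ?_) (h1.trans (ZeroMemClass.coe_zero _).symm)
    exact congrArg (fun x => X.up x * (z : Ser) ^ i) (G.cs_one _).symm

/-- The equation of a function over the local ring of the cusp. -/
theorem exists_equation {z : G.splitField} (hz : ∀ P' : Pair q, G.emb c.δ P' z ∈ X.posInt) :
    ∃ (s : c.Bc) (R : ℕ → c.Bc), c.φb s ≠ 0 ∧
      (G.baseHom s * z) ^ Fintype.card (Pair q) + ∑ i ∈ Finset.range (Fintype.card (Pair q)),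
        G.baseHom (R i) * (G.baseHom s * z) ^ i = 0 ∧
      ((∀ P' : Pair q, X.pos0k ⟨_, hz P'⟩ = 0) →
        ∀ i < Fintype.card (Pair q), c.φb (R i) = 0) := by
  classical
  obtain ⟨P, hD, hroot, hne, hcoef⟩ := exists_polynomial (G := G) z
  set d := Fintype.card (Pair q) with hd
  let QP : X.posInt[X] := ∏ P' : Pair q, (Polynomial.X - Polynomial.C ⟨_, hz P'⟩)
  have hQP : QP.map X.posInt.subtype =
      ∏ P' : Pair q, (Polynomial.X - Polynomial.C (G.emb c.δ P' z)) := by
    simp [QP, Polynomial.map_prod]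
  have hupne : X.up (G.cs c.δ (P.coeff d)) ≠ 0 := (_root_.map_ne_zero _).mpr (hne c.δ)
  have key : ∀ n, n < d → ∃ s r : c.Bc, c.φb s ≠ 0 ∧
      (s : G.C) * P.coeff n = (r : G.C) * P.coeff d ∧
      ((∀ P' : Pair q, X.pos0k ⟨_, hz P'⟩ = 0) → c.φb r = 0) := by
    intro n hn
    obtain ⟨g, hg⟩ : ∃ g : Ser, g = G.cs c.δ (P.coeff n) / G.cs c.δ (P.coeff d) := ⟨_, rfl⟩
    have hgup : X.up g = (QP.coeff n : Ser) := by
      rw [hg, map_div₀, hcoef, mul_div_cancel_left₀ _ hupne, ← hQP, coeff_map]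
      rfl
    have hgP : g ∈ X.posInt := X.posInt_of_up (hgup ▸ (QP.coeff n).2)
    obtain ⟨s, r, hs, hsr, hr⟩ := c.exists_ratio (hne c.δ) (hg ▸ div_mul_cancel₀ _ (hne c.δ)) hgP
    refine ⟨s, r, hs, hsr, fun h0 => ?_⟩
    rw [hr, ← X.pos0k_up hgP, show (⟨X.up g, X.up_mem_posInt hgP⟩ : X.posInt) = QP.coeff n from
      Subtype.ext hgup, ← coeff_map]
    simp only [QP, Polynomial.map_prod, Polynomial.map_sub, map_X, map_C, h0, map_zero, sub_zero,
      Finset.prod_const, Finset.card_univ, coeff_X_pow, ← hd, if_neg hn.ne, mul_zero]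
  choose! s r hs hsr hr0 using key
  refine ⟨∏ l ∈ Finset.range d, s l, clearCoeff d s r, ?_, ?_, fun h0 i hi =>
    map_clearCoeff c.φb (hr0 i hi h0)⟩
  · rw [map_prod]
    exact Finset.prod_ne_zero_iff.mpr fun l hl => hs l (Finset.mem_range.mp hl)
  · exact clearCoeff_spec (G.baseHom.toRingHom.comp c.Bc.subtype) hroot hD fun i hi => by
      simp only [RingHom.comp_apply, Subring.coe_subtype, AlgHom.toRingHom_eq_coe, RingHom.coe_coe]
      rw [← map_mul, ← map_mul, hsr i hi]

/-- **Functions with integral expansions along all pairs are defined at the points over the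
cusp.** -/
theorem exists_mul_mem {z : G.splitField} (hz : ∀ P' : Pair q, G.emb c.δ P' z ∈ X.posInt) :
    ∃ s : c.Bc, c.φb s ≠ 0 ∧ G.baseHom s * z ∈ c.B := by
  obtain ⟨s, R, hs, heq, -⟩ := c.exists_equation hz
  refine ⟨s, hs, mem_intSet_of_isIntegral ?_⟩
  refine ⟨Polynomial.X ^ Fintype.card (Pair q) + ∑ i : Fin (Fintype.card (Pair q)),
    Polynomial.C (⟨_, c.baseHom_mem (R i)⟩ : intSet X.O ({G.baseHom c.W} : Set G.splitField)) *
      Polynomial.X ^ (i : ℕ), monic_X_pow_add (degree_sum_fin_lt _), ?_⟩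
  simp only [eval₂_add, eval₂_pow, eval₂_X, eval₂_finsetSum, eval₂_mul, eval₂_C]
  rw [← Fin.sum_univ_eq_sum_range (fun i => G.baseHom (R i) * (G.baseHom s * z) ^ i)] at heq
  exact heq

/-- A function of the chart whose values at all the points over the cusp vanish vanishes at the
given one. -/
theorem φ_eq_zero_of_series (v : c.B) (h : ∀ P' : Pair q, X.pos0k (c.series P' v) = 0) :
    c.P.φ v = 0 := by
  obtain ⟨s, R, hs, heq, hR⟩ := c.exists_equation (z := (v : G.splitField))
    fun P' => c.emb_mem_posInt P' v.2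
  let d := Fintype.card (Pair q)
  let sv : c.B := ⟨_, c.baseHom_mem s⟩ * v
  have e : sv ^ d + ∑ i ∈ Finset.range d, (⟨_, c.baseHom_mem (R i)⟩ : c.B) * sv ^ i = 0 := by
    refine Subtype.ext ?_
    push_cast
    exact heq
  have h1 := congrArg c.P.φ e
  rw [map_add, map_sum, map_pow, map_zero, Finset.sum_eq_zero, add_zero] at h1
  · have h2 := eq_zero_of_pow_eq_zero h1
    rw [map_mul] at h2
    exact (mul_eq_zero.mp h2).resolve_left hs
  · intro i hi
    rw [map_mul, show c.P.φ ⟨_, c.baseHom_mem (R i)⟩ = 0 from hR h i (Finset.mem_range.mp hi),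
      zero_mul]

end CuspPt

end Model

end FLTAgent.CarayolSquare
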