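import Fermat.Agent.CarayolSquare.Cusps.CuspComp

/-!
# The points over a cusp

`exists_regPoint` and `singleAt`: a point over a cusp is regular and lies on a single component.
Used for `glueCusps` in `Cusps.Cusps`.
-/

set_option autoImplicit false

noncomputable section

open ModularCurve FLTAgent.LevelM

namespace FLTAgent.CarayolSquare

attribute [local instance high] RingHom.instRingHomClass MonoidHomClass.toMulHomClass
  RingHomClass.toAddMonoidHomClass RingHomClass.toMonoidHomClass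

local notation "Qbar" => AlgebraicClosure ℚ

variable {q : ℕ} [NeZero q] [Fact q.Prime]

theorem Ctx.pos0k_congr_sigma (X : Ctx q) (a : (ZMod q)ˣ) {s t : X.posInt}
    (h : (s : Ser).coeff 0 = X.sigma a ((t : Ser).coeff 0)) : X.pos0k s = X.pos0k t := by
  rw [Ctx.pos0k, RingHom.comp_apply, RingHom.comp_apply, ← sub_eq_zero, ← map_sub,
    IsLocalRing.residue_eq_zero_iff, X.A.valuation_lt_one_iff]
  show X.A.valuation ((s : Ser).coeff 0 - (t : Ser).coeff 0) < 1
  have := X.fixedData.res_fixed _ (X.sigma_mem a) _ (X.fixedData_A.symm ▸ X.intSer_of_posInt t.2 0)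
  rw [X.fixedData_A] at this
  rwa [h]

namespace Model

variable {X : Ctx q} {M₁ : ℕ} [NeZero M₁] {G : Model X M₁}

namespace CuspPt

variable (c : G.CuspPt)

/-- Functions with integral expansions along all pairs. -/
def goodRing : Subring G.splitField :=
  ⨅ P : Pair q, X.posInt.comap (G.emb c.δ P).toRingHom

omit [Fact (Nat.Prime q)] in
theorem mem_goodRing {z : G.splitField} :
    z ∈ c.goodRing ↔ ∀ P : Pair q, G.emb c.δ P z ∈ X.posInt := by
  simp only [goodRing, Subring.mem_iInf]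
  rfl

theorem chart_le_good {z : G.splitField} (hz : z ∈ c.B) : z ∈ c.goodRing :=
  c.mem_goodRing.mpr fun P => c.emb_mem_posInt P hz

omit [Fact (Nat.Prime q)] in
theorem sel_good (κ : Option Bool) : c.sel κ ∈ c.goodRing :=
  c.mem_goodRing.mpr fun P => c.sel_mem P κ

omit [Fact (Nat.Prime q)] in
theorem mel_good : c.mel true ∈ c.goodRing :=
  c.mem_goodRing.mpr fun P => (c.mel_val P true).1

/-- The value along a pair. -/
def val0 (P : Pair q) : c.goodRing →+* X.k :=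
  X.pos0k.comp (((G.emb c.δ P).toRingHom.comp c.goodRing.subtype).codRestrict X.posInt
    fun z => c.mem_goodRing.mp z.2 P)

omit [Fact (Nat.Prime q)] in
theorem val0_eq (P : Pair q) {z : G.splitField} (hz : z ∈ c.goodRing)
    (h : G.emb c.δ P z ∈ X.posInt) : c.val0 P ⟨z, hz⟩ = X.pos0k ⟨_, h⟩ := rfl

theorem val0_orbit {P : Pair q} {κ : Option Bool} (h : kindOf P = κ) (z : c.goodRing) :
    c.val0 P z = c.val0 (kindPair κ) z := by
  obtain ⟨a, ha⟩ := coeff_zero_orbit (G := G) c.δ h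
  exact X.pos0k_congr_sigma a (ha z)

omit [Fact (Nat.Prime q)] in
theorem val0_sel (P : Pair q) (κ : Option Bool) :
    c.val0 P ⟨_, c.sel_good κ⟩ = if kindOf P = κ then X.resK c.lead ^ 2 else 0 := by
  obtain ⟨h, e⟩ := c.sel_val P κ
  rw [c.val0_eq P _ h, e]

theorem val0_base (P : Pair q) (s : c.Bc) :
    c.val0 P ⟨_, c.chart_le_good (c.baseHom_mem s)⟩ = c.φb s :=
  c.pos0k_series_base P s

theorem val0_algebraMap (P : Pair q) (o : X.O) :
    c.val0 P ⟨_, c.chart_le_good (G.algebraMap_mem_uChart (G.baseHom c.W) o)⟩ = X.resK o := by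
  rw [← X.pos0k_algebraMap o]
  exact congrArg X.pos0k (Subtype.ext ((G.embO c.δ P).commutes o))

theorem φ_eq_zero_of_val0 (v : c.B) (h : ∀ P, c.val0 P ⟨_, c.chart_le_good v.2⟩ = 0) :
    c.P.φ v = 0 :=
  c.φ_eq_zero_of_series v h

theorem exists_mul_mem_good {z : G.splitField} (hz : z ∈ c.goodRing) :
    ∃ s : c.Bc, c.φb s ≠ 0 ∧ G.baseHom s * z ∈ c.B :=
  c.exists_mul_mem (c.mem_goodRing.mp hz)

omit [Fact (Nat.Prime q)] in
theorem inv_good {z : G.splitField} (hz : z ∈ c.goodRing) (h : ∀ P, c.val0 P ⟨z, hz⟩ ≠ 0) :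
    z⁻¹ ∈ c.goodRing := by
  refine c.mem_goodRing.mpr fun P => ?_
  obtain ⟨t, ht⟩ := X.exists_inv_posInt ⟨_, c.mem_goodRing.mp hz P⟩ (h P)
  rw [map_inv₀, inv_eq_of_mul_eq_one_right (congrArg Subtype.val ht :)]
  exact t.2

theorem exists_clear_sel : ∃ s : c.Bc, c.φb s ≠ 0 ∧ ∀ κ, G.baseHom s * c.sel κ ∈ c.B := by
  classical
  choose s hs hsm using fun κ => c.exists_mul_mem_good (c.sel_good κ)
  refine ⟨∏ κ, s κ, by
      rw [map_prod]; exact Finset.prod_ne_zero_iff.mpr fun κ _ => hs κ, fun κ => ?_⟩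
  rw [← Finset.prod_erase_mul _ _ (Finset.mem_univ κ), Subring.coe_mul, map_mul, mul_assoc]
  exact mul_mem (c.baseHom_mem _) (hsm κ)

/-- The component of the point. -/
theorem exists_component : ∃ (κ : Option Bool) (s : c.Bc), c.φb s ≠ 0 ∧
    (∀ κ', G.baseHom s * c.sel κ' ∈ c.B) ∧
    ∀ h : G.baseHom s * c.sel κ ∈ c.B, c.P.φ ⟨_, h⟩ ≠ 0 := by
  classical
  obtain ⟨s, hs, hsm⟩ := c.exists_clear_sel
  by_contra hcon
  push Not at hcon
  have hcon' : ∀ κ, c.P.φ ⟨_, hsm κ⟩ = 0 := fun κ => (hcon κ s hs hsm).2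
  have hS : ∑ κ, c.sel κ ∈ c.goodRing := sum_mem fun κ _ => c.sel_good κ
  have hS0 : ∀ P, c.val0 P ⟨_, hS⟩ ≠ 0 := fun P => by
    rw [show (⟨_, hS⟩ : c.goodRing) = ∑ κ, ⟨_, c.sel_good κ⟩ from Subtype.ext (by push_cast; rfl),
      map_sum]
    simp only [c.val0_sel, Finset.sum_ite_eq, Finset.mem_univ, if_true]
    exact pow_ne_zero 2 c.lead_res_ne_zero
  have hne : (∑ κ, c.sel κ) ≠ 0 := fun h => hS0 (Pair.base q) (by
    rw [show (⟨_, hS⟩ : c.goodRing) = 0 from Subtype.ext h, map_zero])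
  obtain ⟨s', hs', hi⟩ := c.exists_mul_mem_good (c.inv_good hS hS0)
  have e : (⟨_, hi⟩ : c.B) * ∑ κ, ⟨_, hsm κ⟩ = ⟨_, c.baseHom_mem (s' * s)⟩ := by
    refine Subtype.ext ?_
    push_cast
    rw [← Finset.mul_sum, map_mul, mul_mul_mul_comm, inv_mul_cancel₀ hne, mul_one]
  have h1 := congrArg c.P.φ e
  rw [RingHom.map_mul, map_sum] at h1
  simp only [hcon', Finset.sum_const_zero, mul_zero] at h1
  have h2 : c.φb (s' * s) ≠ 0 := by rw [map_mul]; exact mul_ne_zero hs' hs
  exact h2 h1.symm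

/-- The point is the reduction along its component. -/
theorem φ_eq {κ : Option Bool} {s : c.Bc} (hsm : G.baseHom s * c.sel κ ∈ c.B)
    (hne : c.P.φ ⟨_, hsm⟩ ≠ 0) (v : c.B) :
    c.P.φ v = c.val0 (kindPair κ) ⟨_, c.chart_le_good v.2⟩ := by
  obtain ⟨o, ho⟩ := X.resK_surjective (c.val0 (kindPair κ) ⟨_, c.chart_le_good v.2⟩)
  let oB : c.B := ⟨_, G.algebraMap_mem_uChart (G.baseHom c.W) o⟩
  have h0 : c.P.φ ((v - oB) * ⟨_, hsm⟩) = 0 := by
    refine c.φ_eq_zero_of_val0 _ fun P => ?_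
    have e : (⟨_, c.chart_le_good ((v - oB) * ⟨_, hsm⟩ : c.B).2⟩ : c.goodRing) =
        (⟨_, c.chart_le_good v.2⟩ - ⟨_, c.chart_le_good oB.2⟩) *
          (⟨_, c.chart_le_good (c.baseHom_mem s)⟩ * ⟨_, c.sel_good κ⟩) := Subtype.ext rfl
    rw [e, RingHom.map_mul, RingHom.map_sub, RingHom.map_mul, c.val0_base, c.val0_sel,
      c.val0_algebraMap]
    by_cases hk : kindOf P = κ
    · rw [c.val0_orbit hk, ← ho, sub_self, zero_mul]
    · rw [if_neg hk, mul_zero, mul_zero]
  rw [map_mul, mul_eq_zero, or_iff_left hne, map_sub, c.P.const o oB rfl, sub_eq_zero, ho] at h0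
  exact h0

/-- Functions vanishing on the component of the point vanish at it. -/
theorem red_ne_zero {κ : Option Bool} {s : c.Bc} (hsm : G.baseHom s * c.sel κ ∈ c.B)
    (hne : c.P.φ ⟨_, hsm⟩ ≠ 0) {z : c.B} (hz : c.P.φ z ≠ 0) :
    G.red κ (z : G.splitField) ≠ 0 := by
  intro h0
  have hB : ∀ κ', ∀ b : c.B, (b : G.splitField) ∈ G.V κ' := fun κ' b =>
    G.uChart_le_V (fun κ => G.baseHom_mem_V κ _) κ' b.2
  set e : c.B := ⟨_, hsm⟩
  obtain ⟨N, w, hw, hpow⟩ :=
      G.exists_pow_eq_mul c.coord c.W c.hW (c := ((z * e : c.B) : G.splitField))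
    (z * e).2 fun κ' => ⟨hB _ _, by
      rw [← G.red_eq (hB _ _), Subring.coe_mul, G.red_mul (hB _ _) (hB _ _)]
      by_cases hk : κ' = κ
      · rw [hk, h0, zero_mul]
      · obtain ⟨hV, hr⟩ := c.red_sel hk
        rw [show (e : G.splitField) = G.baseHom s * c.sel κ from rfl,
          G.red_mul (G.baseHom_mem_V _ _) hV, hr, mul_zero, mul_zero]⟩
  have h1 := congrArg c.P.φ (Subtype.ext (by push_cast; exact hpow) :
    (z * e) ^ N = (q : c.B) * (⟨w, hw⟩ : c.B))
  rw [RingHom.map_pow, RingHom.map_mul, RingHom.map_mul, map_natCast c.P.φ, X.natCast_k,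
      zero_mul] at h1
  exact pow_ne_zero N (mul_ne_zero hz hne) h1

theorem valuation_eq_one {κ : Option Bool} {z : G.splitField} (hz : z ∈ G.V κ)
    (h : G.red κ z ≠ 0) : (G.V κ).valuation z = 1 :=
  le_antisymm (((G.V κ).valuation_le_one_iff _).mpr hz)
    (not_lt.mp fun hlt => h ((G.red_eq_zero_iff hz).mpr hlt))

theorem mel_red_none : c.mel true ∈ G.V none ∧ G.red none (c.mel true) = 0 := by
  obtain ⟨hd, hT⟩ := c.intAt_elts none
  let D : Bool → intAt (G := G) none := fun b => ⟨_, hd b⟩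
  let T : intAt (G := G) none := ⟨_, hT⟩
  obtain ⟨hV, e⟩ := red_eq_redI
    (D true ^ q * T ^ c.tauPow - D false * D true ^ (q - 1) * T ^ c.tauPow)
  refine ⟨hV, e.trans ?_⟩
  have hl : ∀ b, (kindPair (q := q) none).line b ≠ none :=
    (kindOf_eq_none_iff _).mp (kindOf_kindPair _)
  obtain ⟨d, hd'⟩ := Option.ne_none_iff_exists'.mp (hl true)
  obtain ⟨d', hd''⟩ := Option.ne_none_iff_exists'.mp (hl false)
  have hD : ∀ b, redI G none (D b) =
      X.redS ⟨discFam X M₁ ((kindPair none).line b), (X.discFam_mem_goodSer M₁ _).1⟩ := fun b =>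
    congrArg X.redS (Subtype.ext (G.emb_gen _ _ _ _))
  have heq : redI G none (D false) = redI G none (D true) := by
    rw [hD, hD]
    simp only [hd', hd'']
    exact redS_disc_eq (q := q) (X := X) (M₁ := M₁) d' d
  rw [map_sub, map_mul, map_mul, map_mul, map_pow, map_pow, map_pow, heq,
    mul_pow_sub_one X.prime.ne_zero, sub_self]

/-- Division by the parameter. -/
theorem div_good {κ : Option Bool} {y : G.splitField}
    (hy : ∀ P : Pair q, ∃ h : G.emb c.δ P y ∈ X.posInt, kindOf P ≠ κ → X.pos0k ⟨_, h⟩ ≠ 0)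
    (hy' : ∀ P : Pair q, kindOf P = κ →
      ∃ t : X.posInt, G.emb c.δ P y = Ctx.tpow 1 * (t : Ser) ∧ X.pos0k t ≠ 0)
    {z : G.splitField} (hz : z ∈ c.goodRing) (h0 : (G.emb c.δ (kindPair κ) z).coeff 0 = 0) :
    z / y ∈ c.goodRing := by
  refine c.mem_goodRing.mpr fun P => ?_
  rw [map_div₀]
  by_cases hk : kindOf P = κ
  · obtain ⟨a, ha⟩ := coeff_zero_orbit (G := G) c.δ hk
    obtain ⟨t, ht, ht0⟩ := hy' P hk
    obtain ⟨r, hr, -⟩ := X.exists_eq_tpow_mul (c.mem_goodRing.mp hz P) (by rw [ha, h0, map_zero])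
    obtain ⟨t', ht'⟩ := X.exists_inv_posInt t ht0
    rw [ht, hr, mul_div_mul_left _ _ (HahnSeries.single_ne_zero one_ne_zero), div_eq_mul_inv,
      inv_eq_of_mul_eq_one_right (congrArg Subtype.val ht' :)]
    exact mul_mem r.2 t'.2
  · obtain ⟨h, hne⟩ := hy P
    obtain ⟨t', ht'⟩ := X.exists_inv_posInt ⟨_, h⟩ (hne hk)
    rw [div_eq_mul_inv, inv_eq_of_mul_eq_one_right (congrArg Subtype.val ht' :)]
    exact mul_mem (c.mem_goodRing.mp hz P) t'.2

omit [NeZero q] in
theorem midRoot_base_primitive (G : Model X M₁) :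
    IsPrimitiveRoot (midRoot X M₁ (0 : ZMod q) 1) q := by
  have h0 : ((0 : ZMod q)).val = 0 := ZMod.val_zero
  have h1 : ((1 : ZMod q)).val = 1 := ZMod.val_one q
  rw [midRoot, h0, h1, pow_zero, one_pow, one_pow, mul_one, pow_one]
  exact X.hζ.pow_of_coprime _ ((Nat.coprime_comm.mp
    ((X.prime.coprime_iff_not_dvd).mpr G.q_not_dvd)))

/-- The constant term is killed by a multiple of the first parameter. -/
theorem exists_first (κ : Option Bool) : ∃ x : G.splitField, x ∈ c.goodRing ∧ x ≠ 0 ∧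
    x ∈ G.V κ ∧ G.red κ x = 0 ∧
    (∀ h : x ∈ c.goodRing, c.val0 (kindPair κ) ⟨x, h⟩ = 0) ∧
    ∀ z ∈ c.goodRing, X.A.valuation ((G.emb c.δ (kindPair κ) z).coeff 0) < 1 →
      ∃ a ∈ c.goodRing, (G.emb c.δ (kindPair κ) (z - a * x)).coeff 0 = 0 := by
  rcases κ with _ | b
  · obtain ⟨hV, hred⟩ := c.mel_red_none
    have hη := midRoot_base_primitive G
    set η := midRoot X M₁ (0 : ZMod q) 1 with hηdef
    set P0 : Pair q := kindPair none
    have hl1 : P0.line true = some 0 := rfl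
    have hl2 : P0.line (!true) = some 1 := rfl
    obtain ⟨R, hR, hR0⟩ := c.mel_mid hη hl1 hl2
    rw [← hηdef] at hR0
    have hR0' := mul_left_cancel₀ (X.one_sub_ne_zero hη) hR0
    have hc : (G.emb c.δ P0 (c.mel true)).coeff 0 =
        (1 - η) * algebraMap X.K Qbar (c.lead : X.K) := by
      rw [hR, HahnSeries.C_mul_eq_smul, HahnSeries.coeff_smul, smul_eq_mul, hR0']
    refine ⟨c.mel true, c.mel_good, fun h => ?_, hV, hred, fun h => ?_, fun z hz hlt => ?_⟩
    · rw [h, map_zero, HahnSeries.coeff_zero, eq_comm, mul_eq_zero] at hc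
      rcases hc with hc | hc
      · exact X.one_sub_ne_zero hη hc
      · refine c.lead_res_ne_zero ?_
        rw [show c.lead = 0 from Subtype.ext ((map_eq_zero _).mp hc), map_zero]
    · rw [c.val0_eq P0 h ((c.mel_val P0 true).1), X.pos0k_eq_zero_iff]
      show X.A.valuation ((G.emb c.δ P0 (c.mel true)).coeff 0) < 1
      rw [hc, map_mul]
      exact lt_of_le_of_lt (mul_le_of_le_one_right' ((X.A.valuation_le_one_iff _).mpr c.lead.2))
        (X.valuation_one_sub_lt hη)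
    · obtain ⟨Q, hQ⟩ := X.exists_eq_mul_of_lt_one hη (coeff_mem_L₁ c.δ P0 z 0) hlt
      obtain ⟨l', hl'⟩ := c.isUnit_lead.exists_right_inv
      let oG : X.O →+* c.goodRing := ((algebraMap X.O G.splitField).codRestrict c.goodRing fun o =>
        c.chart_le_good (G.algebraMap_mem_uChart (G.baseHom c.W) o))
      let xg : c.goodRing := ⟨_, c.mel_good⟩ * oG l'
      let a : c.goodRing := oG l' * Q.eval₂ oG xg
      refine ⟨a, a.2, ?_⟩
      let ev : c.goodRing →+* Qbar := (X.A.subtype.comp X.pos0).comp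
        (((G.emb c.δ P0).toRingHom.comp c.goodRing.subtype).codRestrict X.posInt
          fun z => c.mem_goodRing.mp z.2 P0)
      have hev : ∀ v : c.goodRing, ev v = (G.emb c.δ P0 (v : G.splitField)).coeff 0 := fun v => rfl
      have hconst : ev.comp oG = (algebraMap X.K Qbar).comp (algebraMap X.O X.K) := by
        refine RingHom.ext fun o => ?_
        rw [RingHom.comp_apply, hev,
          show G.emb c.δ P0 (oG o : G.splitField) = algebraMap X.O Ser o from
            (G.embO c.δ P0).commutes o,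
          X.algebraMap_eq_C, HahnSeries.C_apply, HahnSeries.coeff_single_same]
        rfl
      have hxg : ev xg = 1 - η := by
        rw [map_mul, ← RingHom.comp_apply, hconst, hev, hc, RingHom.comp_apply, mul_assoc,
            ← map_mul]
        show (1 - η) * algebraMap X.K Qbar ((c.lead : X.K) * (l' : X.K)) = _
        rw [← Subring.coe_mul, hl']
        simp
      have key : ev (⟨z, hz⟩ - a * ⟨_, c.mel_good⟩) = 0 := by
        rw [map_sub, show a * ⟨_, c.mel_good⟩ = xg * Q.eval₂ oG xg from by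
          simp only [a, xg]; ring, map_mul, Polynomial.hom_eval₂, hconst, hxg, hev, hQ,
          Polynomial.aeval_def, Polynomial.eval₂_map, sub_self]
      rw [← key, hev]
      rfl
  · have hq0 : (q : G.splitField) ≠ 0 := Nat.cast_ne_zero.mpr X.prime.ne_zero
    refine ⟨q, natCast_mem _ q, hq0, natCast_mem _ q, G.red_natCast_q _, fun h => ?_,
      fun z hz hlt => ?_⟩
    · rw [show (⟨(q : G.splitField), h⟩ : c.goodRing) = (q : c.goodRing) from Subtype.ext (by simp),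
        map_natCast, X.natCast_k]
    · obtain ⟨o, ho⟩ := exists_const_end (G := G) c.δ b (c.mem_goodRing.mp hz _)
      have ho' := ho (kindPair (some b)) (kindOf_kindPair _)
      rw [ho', ← X.fixedData_A] at hlt
      obtain ⟨d, rfl⟩ : X.fixedData.π ∣ o := (X.fixedData.lt_one_iff o).mp hlt
      refine ⟨algebraMap X.O G.splitField d,
        c.chart_le_good (G.algebraMap_mem_uChart (G.baseHom c.W) d), ?_⟩
      rw [map_sub, HahnSeries.coeff_sub, ho', map_mul,
        show G.emb c.δ (kindPair (some b)) (algebraMap X.O G.splitField d) =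
            algebraMap X.O Ser d from
          (G.embO c.δ _).commutes d,
        map_natCast, X.algebraMap_eq_C, ← map_natCast (HahnSeries.C : Qbar →+* Ser), ← map_mul,
        HahnSeries.C_apply, HahnSeries.coeff_single_same, sub_eq_zero, X.fixedData_π,
            Subring.coe_mul,
        map_mul, mul_comm]
      simp

/-- A function of exact order one along a component, vanishing on the others, does not vanish on
it. -/
theorem red_ne_zero_of_order {κ : Option Bool} {v : G.splitField} (hv : v ∈ c.B)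
    (hred : ∀ κ', κ' ≠ κ → G.red κ' v = 0) (u : X.posInt) (hu : X.pos0k u ≠ 0)
    (h : G.emb c.δ (kindPair κ) v = Ctx.tpow 1 * (u : Ser)) : G.red κ v ≠ 0 := by
  intro h0
  have hV : ∀ κ', v ∈ G.V κ' := fun κ' =>
    G.uChart_le_V (fun κ => G.baseHom_mem_V κ _) κ' hv
  obtain ⟨N, w, hw, hpow⟩ := G.exists_pow_eq_mul c.coord c.W c.hW hv fun κ' => ⟨hV κ', by
    rw [← G.red_eq (hV κ')]
    by_cases hk : κ' = κ
    · rw [hk, h0]
    · exact hred κ' hk⟩
  have h1 := congrArg (G.emb c.δ (kindPair κ)) hpow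
  rw [map_pow, h, map_mul, map_natCast, mul_pow, Ctx.tpow, HahnSeries.single_pow, one_pow,
    nsmul_eq_mul, mul_one] at h1
  have h2 := congrArg (fun z : Ser => z.coeff ((N : ℕ) : ℤ)) h1
  try simp only at h2
  have h3 := HahnSeries.coeff_single_mul_add (r := (1 : Qbar)) (x := (u : Ser) ^ N) (a := (0 : ℤ))
    (b := (N : ℤ))
  rw [zero_add, one_mul] at h3
  rw [h3, ← map_natCast (HahnSeries.C : Qbar →+* Ser), HahnSeries.C_mul_eq_smul,
      HahnSeries.coeff_smul,
    smul_eq_mul, ← SubmonoidClass.coe_pow u N] at h2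
  refine pow_ne_zero N hu ?_
  rw [← map_pow, X.pos0k_eq_zero_iff]
  show X.A.valuation (((u ^ N : X.posInt) : Ser).coeff 0) < 1
  rw [h2, map_mul]
  exact lt_of_le_of_lt (mul_le_of_le_one_right' ((X.A.valuation_le_one_iff _).mpr
    (X.intSer_of_posInt (c.emb_mem_posInt _ hw) _))) X.q_lt_one

/-- The value at the point of a moved good function. -/
theorem φ_moved {κ : Option Bool} {s : c.Bc} (hsm : G.baseHom s * c.sel κ ∈ c.B)
    (hne : c.P.φ ⟨_, hsm⟩ ≠ 0) {t : c.Bc} {z : G.splitField} (hz : z ∈ c.goodRing)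
    (hB : G.baseHom t * z ∈ c.B) :
    c.P.φ ⟨_, hB⟩ = c.φb t * c.val0 (kindPair κ) ⟨z, hz⟩ := by
  rw [c.φ_eq hsm hne, ← c.val0_base (kindPair κ), ← map_mul]
  rfl

theorem exists_gen {κ : Option Bool} {s : c.Bc} (hsm : G.baseHom s * c.sel κ ∈ c.B)
    (hne : c.P.φ ⟨_, hsm⟩ ≠ 0) {x y : G.splitField} (hxg : x ∈ c.goodRing)
    (hy : ∀ P : Pair q, ∃ h : G.emb c.δ P y ∈ X.posInt, kindOf P ≠ κ → X.pos0k ⟨_, h⟩ ≠ 0)
    (hy' : ∀ P : Pair q, kindOf P = κ →
      ∃ t : X.posInt, G.emb c.δ P y = Ctx.tpow 1 * (t : Ser) ∧ X.pos0k t ≠ 0)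
    (hxdiv : ∀ z ∈ c.goodRing, X.A.valuation ((G.emb c.δ (kindPair κ) z).coeff 0) < 1 →
      ∃ a ∈ c.goodRing, (G.emb c.δ (kindPair κ) (z - a * x)).coeff 0 = 0)
    {sx sy : c.Bc} (hsx : c.φb sx ≠ 0) (hsy : c.φb sy ≠ 0)
    (hxB : G.baseHom sx * x ∈ c.B) (hyB : G.baseHom sy * y ∈ c.B) (z : c.B) (hz : c.P.φ z = 0) :
    ∃ r : c.B, c.P.φ r ≠ 0 ∧ ∃ a b : c.B, r * z = a * ⟨_, hxB⟩ + b * ⟨_, hyB⟩ := by
  have hlt : X.A.valuation ((G.emb c.δ (kindPair κ) (z : G.splitField)).coeff 0) < 1 := by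
    rw [c.φ_eq hsm hne, c.val0_eq _ _ (c.emb_mem_posInt _ z.2), X.pos0k_eq_zero_iff] at hz
    exact hz
  obtain ⟨a, hag, ha0⟩ := hxdiv _ (c.chart_le_good z.2) hlt
  have hbg := c.div_good hy hy' (sub_mem (c.chart_le_good z.2) (mul_mem hag hxg)) ha0
  obtain ⟨sa, hsa, haB⟩ := c.exists_mul_mem_good hag
  obtain ⟨sb, hsb, hbB⟩ := c.exists_mul_mem_good hbg
  refine ⟨⟨_, c.baseHom_mem (sa * sb * sx * sy)⟩, ?_,
    ⟨_, haB⟩ * ⟨_, c.baseHom_mem (sb * sy)⟩, ⟨_, hbB⟩ * ⟨_, c.baseHom_mem (sa * sx)⟩, ?_⟩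
  · show c.φb (sa * sb * sx * sy) ≠ 0
    simp only [map_mul]
    exact mul_ne_zero (mul_ne_zero (mul_ne_zero hsa hsb) hsx) hsy
  · refine Subtype.ext ?_
    refine (hy' _ (kindOf_kindPair κ)).elim fun t ht' => ?_
    have ht := ht'.1
    have ht0 := ht'.2
    have hy0 : y ≠ 0 := fun h => by
      have h3 := ht
      rw [h, map_zero, eq_comm, mul_eq_zero] at h3
      refine h3.elim (HahnSeries.single_ne_zero one_ne_zero) fun h4 => ht0 ?_
      rw [show t = 0 from Subtype.ext h4, map_zero]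
    have e : ((z : G.splitField) - a * x) / y * y = (z : G.splitField) - a * x :=
      div_mul_cancel₀ _ hy0
    simp only [Subring.coe_mul, Subring.coe_add, map_mul]
    linear_combination (-(G.baseHom sa * G.baseHom sb * G.baseHom sx * G.baseHom sy)) * e

theorem exists_den (z : G.splitField) :
    ∃ a b : c.B, (b : G.splitField) ≠ 0 ∧ z * (b : G.splitField) = (a : G.splitField) := by
  obtain ⟨d, hd0, hd, hdz⟩ :=
    (G.chartFinite c.coord c.W c.hW (AlgebraicClosure G.splitField)).den z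
  exact ⟨⟨_, (G.chartF_eq_uChart _).le hdz⟩, ⟨d, (G.chartF_eq_uChart _).le hd⟩, hd0, mul_comm _ _⟩

/-- The regular point. -/
theorem exists_regPoint {κ : Option Bool} {s : c.Bc} (hsm : G.baseHom s * c.sel κ ∈ c.B)
    (hne : c.P.φ ⟨_, hsm⟩ ≠ 0) : ∃ R : RegPoint c.B c.P.φ, R.S = c.B ∧ R.V = G.V κ := by
  obtain ⟨y, hy, hy'⟩ := c.exists_yel κ
  obtain ⟨x, hxg, hx0, hxV, hxr, hxv, hxdiv⟩ := c.exists_first κ
  have hyg : y ∈ c.goodRing := c.mem_goodRing.mpr fun P => (hy P).1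
  obtain ⟨sx, hsx, hxB⟩ := c.exists_mul_mem_good hxg
  obtain ⟨sy, hsy, hyB⟩ := c.exists_mul_mem_good hyg
  have hV : ∀ z ∈ c.B, z ∈ G.V κ := fun z hz => G.uChart_le_V (fun κ => G.baseHom_mem_V κ _) κ hz
  obtain ⟨t, ht, ht0⟩ := hy' _ (kindOf_kindPair κ)
  have hyred : G.red κ (G.baseHom sy * y) ≠ 0 := by
    intro h0
    obtain ⟨h, e⟩ := c.sel_val (kindPair κ) κ
    refine c.red_ne_zero_of_order (κ := κ) (mul_mem hyB hsm) (fun κ' hk => ?_)
      (c.series (kindPair κ) ⟨_, c.baseHom_mem sy⟩ * t *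
        (c.series (kindPair κ) ⟨_, c.baseHom_mem s⟩ * ⟨_, h⟩)) ?_ ?_ ?_
    · obtain ⟨hVs, hr⟩ := c.red_sel hk
      rw [G.red_mul (G.uChart_le_V (fun κ => G.baseHom_mem_V κ _) κ' hyB)
        (G.uChart_le_V (fun κ => G.baseHom_mem_V κ _) κ' hsm),
        G.red_mul (G.baseHom_mem_V _ _) hVs, hr, mul_zero, mul_zero]
    · simp only [map_mul, c.pos0k_series_base, e, if_pos (kindOf_kindPair κ)]
      exact mul_ne_zero (mul_ne_zero hsy ht0) (mul_ne_zero (fun h' => hne (by
        rw [c.φ_moved hsm hne (c.sel_good κ) hsm, h', zero_mul]))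
            (pow_ne_zero 2 c.lead_res_ne_zero))
    · simp only [Subring.coe_mul, map_mul, coe_series, ht]
      ring
    · rw [G.red_mul (hV _ hyB) (hV _ hsm), h0, zero_mul]
  refine ⟨{ S := c.B
            le := le_rfl
            noeth := c.isNoetherian_chart
            frac := c.exists_den
            integral := fun b hb => RingHom.isIntegralElem_map _ (x := (⟨b, hb⟩ : c.B))
            x := ⟨_, hxB⟩
            y := ⟨_, hyB⟩
            φ_x := ?_
            φ_y := ?_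
            gen := c.exists_gen hsm hne hxg hy hy' hxdiv hsx hsy hxB hyB
            V := G.V κ
            le_V := hV
            x_ne := mul_ne_zero (fun h => ?_) hx0
            x_lt := (G.red_eq_zero_iff (hV _ hxB)).mp ?_
            y_unit := valuation_eq_one (hV _ hyB) hyred }, rfl, rfl⟩
  · show c.P.φ ⟨_, hxB⟩ = 0
    rw [c.φ_moved hsm hne hxg hxB, hxv, mul_zero]
  · show c.P.φ ⟨_, hyB⟩ = 0
    rw [c.φ_moved hsm hne hyg hyB, c.val0_eq (kindPair κ) hyg (c.mem_goodRing.mp hyg _),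
      show (⟨_, c.mem_goodRing.mp hyg (kindPair κ)⟩ : X.posInt) =
        ⟨_, X.tpow_mem_posInt zero_le_one⟩ * t from Subtype.ext ht, map_mul,
      (X.pos0k_eq_zero_iff ⟨_, X.tpow_mem_posInt zero_le_one⟩).mpr (by simp [Ctx.tpow]),
      zero_mul, mul_zero]
  · refine c.red_ne_zero hsm hne (z := ⟨_, c.baseHom_mem sx⟩) hsx ?_
    show G.red κ (G.baseHom sx) = 0
    rw [h, G.red_zero]
  · rw [G.red_mul (G.baseHom_mem_V _ _) hxV, hxr, mul_zero]

/-- **The point is regular and lies on a single component.** -/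
theorem singleAt (hu : G.IsCuspCoord (G.baseHom c.W)) : SingleAt c.P := by
  obtain ⟨κ, s, hs, hsm, hne'⟩ := c.exists_component
  have hne := hne' (hsm κ)
  obtain ⟨R, hS, hV⟩ := c.exists_regPoint (hsm κ) hne
  have hO : ∀ o, algebraMap X.O G.splitField o ∈ R.S := fun o => by
    rw [hS]; exact G.algebraMap_mem_uChart _ o
  refine ⟨κ, R, hO, G.vertGeneric_cusp hu R hO (by rw [hS]; exact G.self_mem_uChart _),
    fun z hz => by
      have hz' : (z : G.splitField) ∈ c.B := hS.le z.2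
      rw [hV]
      exact valuation_eq_one (G.uChart_le_V (fun κ => G.baseHom_mem_V κ _) κ hz')
        (c.red_ne_zero (hsm κ) hne (z := ⟨_, hz'⟩) hz), hV, fun κ' hκ' => ⟨⟨_, hsm κ⟩, hne, ?_⟩⟩
  obtain ⟨hV, hr⟩ := c.red_sel hκ'
  show G.red κ' (G.baseHom s * c.sel κ) = 0
  rw [G.red_mul (G.baseHom_mem_V _ _) hV, hr, mul_zero]

end CuspPt

end Model

end FLTAgent.CarayolSquare
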