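import Fermat.Agent.CarayolSquare.Cusps.CuspPoint
import Fermat.Agent.CarayolSquare.Geometry.Single
import Fermat.Agent.CarayolSquare.Geometry.Final

/-!
# Gluing at cusps

Points of the charts over the cusps each lie on a single component and are regular
(`singleAt_cusp`), so roots glue there: `glueCusps`, one of the three inputs of
`coreInput_of_glue`.
-/

set_option autoImplicit false

noncomputable section

open Polynomial

namespace FLTAgent.CarayolSquare

variable {q : ℕ} [NeZero q] [Fact q.Prime]

namespace Model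

variable {X : Ctx q} {M₁ : ℕ} [NeZero M₁] (G : Model X M₁)

/-- `h - a` as a coordinate. -/
def coordShift (a : X.O) : G.Coord (G.hSer - algebraMap X.O Ser a) where
  mem := sub_mem (Algebra.subset_adjoin (Set.mem_insert _ _)) (Subalgebra.algebraMap_mem _ a)
  inj := by
    rw [injective_iff_map_eq_zero]
    intro P hP
    have h : aeval G.hSer (P.comp (Polynomial.X - Polynomial.C a)) = 0 := by
      rw [aeval_comp, map_sub, aeval_X, aeval_C]
      exact hP
    have h1 := congrArg (fun Q => Polynomial.comp Q (Polynomial.X + Polynomial.C a))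
      (G.aeval_hSer_injective (h.trans (map_zero _).symm))
    simpa [Polynomial.comp_assoc] using h1
  E := ∏ b ∈ G.roots, (Polynomial.X + Polynomial.C (a - b))
  not_dvd h := by
    obtain ⟨Q, hQ⟩ := h
    have hm : (∏ b ∈ G.roots, (Polynomial.X + Polynomial.C (a - b))).Monic :=
      monic_prod_of_monic _ _ fun b _ => monic_X_add_C _
    have h1 := congrArg Polynomial.leadingCoeff hQ
    rw [hm.leadingCoeff, leadingCoeff_mul, leadingCoeff_C] at h1
    exact X.prime_q.not_isUnit (IsUnit.of_mul_eq_one _ h1.symm)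
  clear := by
    set v := G.hSer - algebraMap X.O Ser a with hv
    have hv' : v ∈ Algebra.adjoin X.O ({v} : Set Ser) := Algebra.self_mem_adjoin_singleton _ _
    have hh : G.hSer ∈ Algebra.adjoin X.O ({v} : Set Ser) := by
      rw [show G.hSer = v + algebraMap X.O Ser a from (sub_add_cancel _ _).symm]
      exact add_mem hv' (Subalgebra.algebraMap_mem _ a)
    refine G.clear_of_gens (aeval_mem_adjoin_singleton _ _) ⟨0, ?_⟩ ⟨1, ?_⟩
    · rw [pow_zero, one_mul]
      exact hh
    · have he : aeval v (∏ b ∈ G.roots, (Polynomial.X + Polynomial.C (a - b))) =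
          ∏ b ∈ G.roots, (G.hSer - algebraMap X.O Ser b) := by
        rw [map_prod]
        refine Finset.prod_congr rfl fun b _ => ?_
        rw [map_add, aeval_X, aeval_C, map_sub, hv]
        ring
      rw [pow_one, he, mul_comm, G.Dinv_mul_ser]
      exact one_mem _

/-- A point where a cusp coordinate vanishes lies on a single component. -/
theorem singleAt_of_cover {w : Ser}
    (hw : w = G.hSer⁻¹ ∨ ∃ a ∈ G.roots, w = G.hSer - algebraMap X.O Ser a)
    (coord : G.Coord w) (W : G.C) (hW : (W : Ser) = w) (hu : G.IsCuspCoord (G.baseHom W))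
    (P : G.Point (G.uChart (G.baseHom W)))
    (h0 : P.φ ⟨G.baseHom W, G.self_mem_uChart _⟩ = 0) : SingleAt P := by
  let B : Subring Ser :=
    (IntermediateField.adjoin X.K (G.C : Set Ser)).toSubfield.toSubring ⊓ intSet X.O ({w} : Set Ser)
  have hB : ∀ z, z ∈ B ↔ InChart X G.C w z := fun z => Iff.rfl
  have hBC : ∀ z ∈ B, z ∈ G.C := fun z hz => G.mem_C_of_isIntegral coord hz.1 hz.2
  let tb : B →+* G.baseChart w :=
    { toFun := fun z => ⟨⟨z, hBC z z.2⟩, z.2.2⟩
      map_one' := rfl
      map_mul' := fun _ _ => rfl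
      map_zero' := rfl
      map_add' := fun _ _ => rfl }
  let ofB : G.baseChart w → B := fun c =>
    ⟨((c : G.C) : Ser), IntermediateField.subset_adjoin _ _ (c : G.C).2, c.2⟩
  have htb : ∀ c, tb (ofB c) = c := fun c => rfl
  let φ : B →+* X.k := (P.φ.comp (G.baseInc hW)).comp tb
  have hconst : ∀ (c : X.O) (z : B), (z : Ser) = algebraMap X.O Ser c →
      φ z = IsLocalRing.residue X.A ⟨algebraMap X.K (AlgebraicClosure ℚ) (c : X.K), c.2⟩ :=
    fun c z hz => P.const c _ (by
      rw [coe_baseInc, show ((tb z : G.baseChart w) : G.C) = algebraMap X.O G.C c from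
        Subtype.ext (hz.trans (G.C.val.commutes c).symm), AlgHom.commutes])
  have hzero : ∀ z : B, (z : Ser) = w → φ z = 0 := fun z hz => by
    refine Eq.trans ?_ h0
    show P.φ (G.baseInc hW (tb z)) = _
    refine congrArg P.φ (Subtype.ext ?_)
    rw [coe_baseInc, show ((tb z : G.baseChart w) : G.C) = W from Subtype.ext (hz.trans hW.symm)]
  obtain ⟨δ, csK, τ, hcs, hval, hτ, hgen, -⟩ := G.cusp_cover w hw B hB φ hconst hzero
  have hval' : ∀ c : G.baseChart w, NoPole (G.cs δ c) ∧ ∃ a : X.A,
      (a : AlgebraicClosure ℚ) = (G.cs δ c).coeff 0 ∧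
        P.φ (G.baseInc hW c) = IsLocalRing.residue X.A a := fun c => by
    have h := hval (ofB c) (IntermediateField.subset_adjoin _ _ (c : G.C).2)
    rwa [hcs] at h
  have hpos : ∀ c : G.baseChart w, G.cs δ c ∈ X.posInt := fun c =>
    X.posInt_of (fun n => by
      obtain ⟨e, he⟩ := G.cs_coeff δ (c : G.C) n
      rw [← he]
      exact e.2) (hval' c).1
  refine CuspPt.singleAt (G := G)
    { w := w
      coord := coord
      W := W
      hW := hW
      P := P
      δ := δ
      pos := hpos
      res := fun c => ?_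
      τ := tb τ
      τ_order := ?_
      gen := fun z hz => ?_ } hu
  · obtain ⟨a, ha, e⟩ := (hval' c).2
    rw [e, Ctx.pos0k, RingHom.comp_apply]
    exact congrArg _ (Subtype.ext ha)
  · have h := hτ (IntermediateField.subset_adjoin _ _ (hBC τ τ.2))
    rwa [show csK ⟨(τ : Ser), _⟩ = G.cs δ (tb τ : G.C) from hcs ⟨τ, hBC τ τ.2⟩] at h
  · obtain ⟨s, hs, a, b, e⟩ := hgen (ofB z) hz
    refine ⟨tb s, hs, tb a, tb b, Subtype.ext (Subtype.ext ?_)⟩
    push_cast
    exact e

/-- Points of the charts where a cusp coordinate vanishes lie on a single component. -/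
theorem singleAt_cusp {u : G.splitField} (hu : G.IsCuspCoord u) (P : G.Point (G.uChart u))
    (h0 : ∀ z : G.uChart u, (z : G.splitField) = u → P.φ z = 0) : SingleAt P := by
  have hu' := hu
  rcases hu' with rfl | ⟨a, ha, rfl⟩
  · let W : G.C := ⟨G.hSer⁻¹, G.hRing_le_C G.coordInv.mem⟩
    have e : G.baseHom W = (G.baseHom G.h)⁻¹ := by
      refine Subtype.ext ?_
      rw [G.coe_baseHom]
      show X.up G.hSer⁻¹ = G.valO (G.baseHom G.h)⁻¹
      rw [map_inv₀, map_inv₀, G.valO_apply, G.coe_baseHom]
    have key : ∀ (u : G.splitField), G.baseHom W = u → G.IsCuspCoord u →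
        ∀ P : G.Point (G.uChart u), (∀ z : G.uChart u, (z : G.splitField) = u → P.φ z = 0) →
          SingleAt P := by
      rintro _ rfl hu P h
      exact G.singleAt_of_cover (Or.inl rfl) G.coordInv W rfl hu P (h _ rfl)
    exact key _ e hu P h0
  · let W : G.C := G.h - algebraMap X.O G.C a
    have e : G.baseHom W = G.baseHom G.h - algebraMap X.O G.splitField a := by
      rw [map_sub, AlgHom.commutes]
    have hW : (W : Ser) = G.hSer - algebraMap X.O Ser a := rfl
    have key : ∀ (u : G.splitField), G.baseHom W = u → G.IsCuspCoord u →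
        ∀ P : G.Point (G.uChart u), (∀ z : G.uChart u, (z : G.splitField) = u → P.φ z = 0) →
          SingleAt P := by
      rintro _ rfl hu P h
      exact G.singleAt_of_cover (Or.inr ⟨a, ha, rfl⟩) (G.coordShift a) W hW hu P (h _ rfl)
    exact key _ e hu P h0

/-- Cusp coordinates are integral along all components. -/
theorem isCuspCoord_mem_V {u : G.splitField} (hu : G.IsCuspCoord u) (κ : Option Bool) :
    u ∈ G.V κ := by
  rcases hu with rfl | ⟨a, -, rfl⟩
  · exact G.unit0_h.inv_mem κ
  · exact sub_mem (G.baseHom_mem_V κ _) (G.algebraMap_mem_V κ a)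

/-- **Roots glue at the cusps.** -/
theorem glueCusps : G.GlueCusps := fun _ hm _ β _ hu P h0 j _ =>
  G.glueOn_of_single (fun κ _ hb => G.uChart_le_V (G.isCuspCoord_mem_V hu) κ hb)
    (G.singleAt_cusp hu P h0) hm β j

end Model

end FLTAgent.CarayolSquare
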