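import Fermat.Agent.CarayolSquare.Geometry.SeriesMod
import Fermat.Agent.LevelM.ModularRing

/-!
# Power series with integral coefficients

`posInt` is the ring of power series with integral coefficients inside the Laurent series over
`ℚ̄`, with constant term `pos0`, its units (`exists_inv_posInt`) and the criterion by almost
integrality `mem_posInt_of_almost`, over the field of coefficients `K (ζ)`.
-/

set_option autoImplicit false

noncomputable section

open ModularCurve FLTAgent.LevelM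

namespace FLTAgent.CarayolSquare

local notation "Qbar" => AlgebraicClosure ℚ

namespace Ctx

variable {q : ℕ} (X : Ctx q)

/-- Integral power series as Laurent series. -/
def ofA : PowerSeries X.A →+* Ser :=
  (HahnSeries.ofPowerSeries ℤ Qbar).comp (PowerSeries.map X.A.subtype)

/-- The ring of integral power series. -/
def posInt : Subring Ser := X.ofA.range

theorem coeff_ofA_nat (P : PowerSeries X.A) (j : ℕ) :
    (X.ofA P).coeff (j : ℤ) = ((PowerSeries.coeff j P : X.A) : Qbar) := by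
  rw [ofA, RingHom.comp_apply, LaurentSeries.coeff_coe_powerSeries, PowerSeries.coeff_map]
  rfl

theorem coeff_ofA_neg (P : PowerSeries X.A) {n : ℤ} (hn : n < 0) : (X.ofA P).coeff n = 0 :=
  ofPowerSeries_coeff_of_neg _ hn

theorem mem_posInt {s : Ser} : s ∈ X.posInt ↔ (∀ n, s.coeff n ∈ X.A) ∧ NoPole s := by
  constructor
  · rintro ⟨P, rfl⟩
    refine ⟨fun n => ?_, fun n hn => X.coeff_ofA_neg P hn⟩
    rcases lt_or_ge n 0 with hn | hn
    · rw [X.coeff_ofA_neg P hn]; exact X.A.zero_mem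
    · obtain ⟨j, rfl⟩ := Int.eq_ofNat_of_zero_le hn
      rw [X.coeff_ofA_nat]; exact Subtype.coe_prop _
  · rintro ⟨hA, hn⟩
    refine ⟨PowerSeries.mk fun j => ⟨s.coeff j, hA j⟩, ?_⟩
    ext n
    rcases lt_or_ge n 0 with h | h
    · rw [X.coeff_ofA_neg _ h, hn n h]
    · obtain ⟨j, rfl⟩ := Int.eq_ofNat_of_zero_le h
      rw [X.coeff_ofA_nat, PowerSeries.coeff_mk]

theorem intSer_of_posInt {s : Ser} (hs : s ∈ X.posInt) : s ∈ X.intSer := (X.mem_posInt.mp hs).1

theorem noPole_of_posInt {s : Ser} (hs : s ∈ X.posInt) : NoPole s := (X.mem_posInt.mp hs).2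

theorem posInt_of {s : Ser} (h : s ∈ X.intSer) (h' : NoPole s) : s ∈ X.posInt :=
  X.mem_posInt.mpr ⟨h, h'⟩

/-- The constant term. -/
def pos0 : X.posInt →+* X.A where
  toFun s := ⟨(s : Ser).coeff 0, (X.mem_posInt.mp s.2).1 0⟩
  map_one' := Subtype.ext (by simp [HahnSeries.coeff_one])
  map_mul' := by
    rintro ⟨_, P, rfl⟩ ⟨_, Q, rfl⟩
    refine Subtype.ext ?_
    show (X.ofA P * X.ofA Q).coeff ((0 : ℕ) : ℤ) =
      (X.ofA P).coeff ((0 : ℕ) : ℤ) * (X.ofA Q).coeff ((0 : ℕ) : ℤ)
    rw [← map_mul, X.coeff_ofA_nat, X.coeff_ofA_nat, X.coeff_ofA_nat,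
      PowerSeries.coeff_zero_eq_constantCoeff_apply, PowerSeries.coeff_zero_eq_constantCoeff_apply,
      PowerSeries.coeff_zero_eq_constantCoeff_apply, map_mul]
    rfl
  map_zero' := rfl
  map_add' s t := Subtype.ext (by
    show ((s : Ser) + (t : Ser)).coeff 0 = _
    rw [HahnSeries.coeff_add]
    rfl)

theorem coe_pos0 (s : X.posInt) : (X.pos0 s : Qbar) = (s : Ser).coeff 0 := rfl

/-- The residue of the constant term. -/
def pos0k : X.posInt →+* X.k := (IsLocalRing.residue X.A).comp X.pos0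

theorem pos0k_eq_zero_iff (s : X.posInt) :
    X.pos0k s = 0 ↔ X.A.valuation ((s : Ser).coeff 0) < 1 := by
  rw [pos0k, RingHom.comp_apply, IsLocalRing.residue_eq_zero_iff, X.A.valuation_lt_one_iff]
  rfl

theorem exists_inv_posInt (s : X.posInt) (h : X.pos0k s ≠ 0) :
    ∃ t : X.posInt, s * t = 1 := by
  obtain ⟨P, hP⟩ := s.2
  have hu : IsUnit (PowerSeries.constantCoeff P) := by
    by_contra hc
    refine h ?_
    rw [pos0k, RingHom.comp_apply, IsLocalRing.residue_eq_zero_iff,
      IsLocalRing.mem_maximalIdeal]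
    rw [show X.pos0 s = PowerSeries.constantCoeff P from Subtype.ext (by
      rw [X.coe_pos0, ← hP, show (0 : ℤ) = ((0 : ℕ) : ℤ) from rfl, X.coeff_ofA_nat,
        PowerSeries.coeff_zero_eq_constantCoeff_apply])]
    exact hc
  obtain ⟨Q, hQ⟩ := (PowerSeries.isUnit_iff_constantCoeff.mpr hu).exists_right_inv
  exact ⟨⟨X.ofA Q, Q, rfl⟩, Subtype.ext (by
    rw [Subring.coe_mul, ← hP, ← map_mul, hQ, map_one]; rfl)⟩

theorem algebraMap_mem_posInt (c : X.O) : algebraMap X.O Ser c ∈ X.posInt := by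
  refine X.posInt_of (fun n => ?_) fun n hn => ?_
  · rw [X.algebraMap_eq_C, HahnSeries.C_apply, HahnSeries.coeff_single]
    split
    · exact c.2
    · exact X.A.zero_mem
  · rw [X.algebraMap_eq_C, HahnSeries.C_apply, HahnSeries.coeff_single_of_ne hn.ne]

theorem pos0k_algebraMap (c : X.O) :
    X.pos0k ⟨algebraMap X.O Ser c, X.algebraMap_mem_posInt c⟩ = X.resK c := by
  refine congrArg (IsLocalRing.residue X.A) (Subtype.ext ?_)
  show (algebraMap X.O Ser c).coeff 0 = _
  rw [X.algebraMap_eq_C, HahnSeries.C_apply, HahnSeries.coeff_single_same]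
  rfl

theorem single_mem_posInt (n : ℕ) : (HahnSeries.single (n : ℤ) (1 : Qbar)) ∈ X.posInt := by
  refine X.posInt_of (fun i => ?_) fun i hi => HahnSeries.coeff_single_of_ne (by omega)
  rw [HahnSeries.coeff_single]
  split
  · exact X.A.one_mem
  · exact X.A.zero_mem

theorem exists_single_mul (s : X.intSer) : ∃ N : ℕ,
    HahnSeries.single (N : ℤ) (1 : Qbar) * (s : Ser) ∈ X.posInt := by
  obtain ⟨b, hb⟩ : ∃ b : ℤ, ∀ n < b, (s : Ser).coeff n = 0 :=
    ⟨(s : Ser).order, fun n hn => HahnSeries.coeff_eq_zero_of_lt_order hn⟩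
  refine ⟨(-b).toNat, X.posInt_of (fun n => ?_) fun n hn => ?_⟩
  · rw [show n = (n - ((-b).toNat : ℤ)) + ((-b).toNat : ℤ) by ring,
      HahnSeries.coeff_single_mul_add, one_mul]
    exact s.2 _
  · rw [show n = (n - ((-b).toNat : ℤ)) + ((-b).toNat : ℤ) by ring,
      HahnSeries.coeff_single_mul_add, one_mul]
    exact hb _ (by omega)

/-! ### The field of coefficients -/

theorem inv_mem_serL₁ {s : Ser} (hs : s ∈ X.serL₁) : s⁻¹ ∈ X.serL₁ := by
  let S : LaurentSeries X.L₁ :=
    { coeff := fun n => ⟨s.coeff n, hs n⟩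
      isPWO_support' := s.isPWO_support'.mono fun n hn h0 => hn (Subtype.ext h0) }
  have hS : coeffMap (X.L₁.val : X.L₁ →+* Qbar) S = s := by
    ext n
    rw [coeffMap_coeff]
    rfl
  intro n
  rw [← hS, ← map_inv₀, coeffMap_coeff]
  exact Subtype.coe_prop _

/-- Values of `K (ζ)` outside the valuation ring have unbounded powers. -/
theorem exists_pow_mul_gt {a c : Qbar} (haL : a ∈ X.L₁) (ha : a ≠ 0) (hcL : c ∈ X.L₁)
    (hc : c ∉ X.A) : ∀ B : ℕ, ∃ i : ℕ, B ≤ i ∧ a * c ^ i ∉ X.A := by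
  intro B
  have hc1 : 1 < X.A.valuation c := not_le.mp fun h => hc ((X.A.valuation_le_one_iff _).mp h)
  have hc0 : c ≠ 0 := fun h => hc (h ▸ X.A.zero_mem)
  have hv : 0 < X.A.valuation (q : Qbar) := X.A.valuation.pos_iff.mpr X.q_ne_zero
  obtain ⟨i, j, hij⟩ := X.exists_pow_valuation haL ha
  obtain ⟨i', j', hij'⟩ := X.exists_pow_valuation hcL hc0
  have hlt : j' < i' := by
    by_contra hle
    push Not at hle
    have h1 : X.A.valuation (q : Qbar) ^ i' < X.A.valuation c ^ q.factorial *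
        X.A.valuation (q : Qbar) ^ i' :=
      lt_mul_of_one_lt_left (pow_pos hv _) (one_lt_pow₀ hc1 (Nat.factorial_ne_zero q))
    rw [hij'] at h1
    exact absurd (pow_le_pow_right_of_le_one' X.q_lt_one.le hle) (not_le.mpr h1)
  refine ⟨B + j + 1, by omega, fun hmem => ?_⟩
  have h1 : (X.A.valuation (a * c ^ (B + j + 1))) ^ q.factorial ≤ 1 :=
    pow_le_one₀ zero_le ((X.A.valuation_le_one_iff _).mpr hmem)
  rw [map_mul, map_pow, mul_pow, ← pow_mul, mul_comm _ q.factorial, pow_mul] at h1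
  have h2 := mul_le_mul_of_nonneg_right h1
    (zero_le : 0 ≤ X.A.valuation (q : Qbar) ^ i * (X.A.valuation (q : Qbar) ^ i') ^ (B + j + 1))
  rw [one_mul, mul_mul_mul_comm, hij, ← mul_pow, hij', ← pow_mul, ← pow_mul, ← pow_add,
    ← pow_add] at h2
  refine absurd h2 (not_le.mpr (pow_lt_pow_right_of_lt_one₀ hv X.q_lt_one ?_))
  have : (j' + 1) * (B + j + 1) ≤ i' * (B + j + 1) := Nat.mul_le_mul_right _ hlt
  nlinarith

/-- **Almost integral series are integral.** -/
theorem mem_posInt_of_almost {z d : Ser} (hz : z ∈ X.serL₁) (hdL : d ∈ X.serL₁) (hd : d ≠ 0)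
    (hdP : d ∈ X.posInt) (h : ∀ i : ℕ, d * z ^ i ∈ X.posInt) : z ∈ X.posInt := by
  classical
  obtain ⟨k, hk⟩ : ∃ k : ℕ, d.order = (k : ℤ) := by
    refine ⟨d.order.toNat, (Int.toNat_of_nonneg ?_).symm⟩
    by_contra hneg
    exact HahnSeries.coeff_order_eq_zero.not.mpr hd (X.noPole_of_posInt hdP _ (not_le.mp hneg))
  have hdk : d.coeff (k : ℤ) ≠ 0 := hk ▸ HahnSeries.coeff_order_eq_zero.not.mpr hd
  have hdlow : ∀ n < (k : ℤ), d.coeff n = 0 := fun n hn =>
    HahnSeries.coeff_eq_zero_of_lt_order (hk ▸ hn)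
  -- the top coefficient
  have key : ∀ w : Ser, ∀ m : ℤ, (∀ n < m, w.coeff n = 0) → ∀ i : ℕ,
      (d * w ^ i).coeff ((k : ℤ) + (i : ℤ) * m) = d.coeff k * w.coeff m ^ i := by
    intro w m hw i
    obtain ⟨h1, h2⟩ := coeff_pow_below hw i
    rw [coeff_mul_lead hdlow h1, h2]
  by_contra hcon
  rw [X.mem_posInt, not_and_or] at hcon
  by_cases hnp : NoPole z
  · obtain hA | hA := hcon
    swap
    · exact hA hnp
    push Not at hA
    have hex : ∃ n : ℕ, z.coeff (n : ℤ) ∉ X.A := by
      obtain ⟨n, hn⟩ := hA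
      rcases lt_or_ge n 0 with h0 | h0
      · exact absurd (hnp n h0 ▸ X.A.zero_mem) hn
      · obtain ⟨j, rfl⟩ := Int.eq_ofNat_of_zero_le h0
        exact ⟨j, hn⟩
    set n := Nat.find hex with hn
    let z₀ : Ser := ∑ l ∈ Finset.range n, HahnSeries.single (l : ℤ) (z.coeff (l : ℤ))
    have hz₀c : ∀ l : ℤ, z₀.coeff l = if l < (n : ℤ) then z.coeff l else 0 := by
      intro l
      simp only [z₀, HahnSeries.coeff_sum]
      split_ifs with hl
      · rcases lt_or_ge l 0 with h0 | h0
        · rw [hnp l h0]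
          exact Finset.sum_eq_zero fun j _ => HahnSeries.coeff_single_of_ne (by omega)
        · obtain ⟨j, rfl⟩ := Int.eq_ofNat_of_zero_le h0
          rw [Finset.sum_eq_single j, HahnSeries.coeff_single_same]
          · intro j' _ hne
            exact HahnSeries.coeff_single_of_ne (by exact_mod_cast hne.symm)
          · intro hj
            exact absurd (Finset.mem_range.mpr (by exact_mod_cast hl)) hj
      · refine Finset.sum_eq_zero fun j hj => HahnSeries.coeff_single_of_ne ?_
        have := Finset.mem_range.mp hj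
        omega
    have hz₀ : z₀ ∈ X.posInt := by
      refine X.posInt_of (fun l => ?_) fun l hl => ?_
      · rw [hz₀c]
        split_ifs with hl
        · rcases lt_or_ge l 0 with h0 | h0
          · rw [hnp l h0]; exact X.A.zero_mem
          · obtain ⟨j, rfl⟩ := Int.eq_ofNat_of_zero_le h0
            exact not_not.mp (Nat.find_min hex (by exact_mod_cast hl))
        · exact X.A.zero_mem
      · rw [hz₀c, if_pos (by omega), hnp l hl]
    have hw : ∀ l < (n : ℤ), (z - z₀).coeff l = 0 := fun l hl => by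
      rw [HahnSeries.coeff_sub, hz₀c, if_pos hl, sub_self]
    have hwn : (z - z₀).coeff (n : ℤ) = z.coeff (n : ℤ) := by
      rw [HahnSeries.coeff_sub, hz₀c, if_neg (lt_irrefl _), sub_zero]
    have halm : ∀ i : ℕ, d * (z - z₀) ^ i ∈ X.posInt := by
      intro i
      rw [sub_eq_add_neg, add_pow, Finset.mul_sum]
      refine sum_mem fun l _ => ?_
      rw [← mul_assoc, ← mul_assoc]
      exact mul_mem (mul_mem (h l) (pow_mem (neg_mem hz₀) _)) (natCast_mem _ _)
    obtain ⟨i, -, hi⟩ := X.exists_pow_mul_gt (hdL k) hdk (hz n) (Nat.find_spec hex) 0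
    refine hi ?_
    have h3 := key (z - z₀) n hw i
    rw [hwn] at h3
    rw [← h3]
    exact (X.mem_posInt.mp (halm i)).1 _
  · have hz0 : z ≠ 0 := fun h0 => hnp (h0 ▸ fun _ _ => rfl)
    have hneg : z.order < 0 := by
      simp only [NoPole] at hnp
      push Not at hnp
      obtain ⟨n, hn, hne⟩ := hnp
      exact lt_of_le_of_lt (HahnSeries.order_le_of_coeff_ne_zero hne) hn
    have h3 := key z z.order (fun l hl => HahnSeries.coeff_eq_zero_of_lt_order hl) (k + 1)
    have h4 : (k : ℤ) + ((k + 1 : ℕ) : ℤ) * z.order < 0 := by push_cast; nlinarith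
    rw [X.noPole_of_posInt (h (k + 1)) _ h4, eq_comm, mul_eq_zero] at h3
    exact h3.elim hdk (pow_ne_zero _ (HahnSeries.coeff_order_eq_zero.not.mpr hz0))

/-- A quotient which is integral over the integral power series is one of them. -/
theorem mem_posInt_of_root {z : Ser} {a b : X.intSer} (haL : (a : Ser) ∈ X.serL₁)
    (hbL : (b : Ser) ∈ X.serL₁) (hb : (b : Ser) ≠ 0) (hab : z * (b : Ser) = a)
    {P : Polynomial X.posInt} (hP : P.Monic) (hPz : Polynomial.eval₂ X.posInt.subtype z P = 0) :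
    z ∈ X.posInt := by
  have hzL : z ∈ X.serL₁ := by
    rw [show z = (a : Ser) * (b : Ser)⁻¹ by rw [← hab, mul_inv_cancel_right₀ hb]]
    exact mul_mem haL (X.inv_mem_serL₁ hbL)
  obtain ⟨Na, hNa⟩ := X.exists_single_mul a
  obtain ⟨Nb, hNb⟩ := X.exists_single_mul b
  set t : Ser := HahnSeries.single ((Na + Nb : ℕ) : ℤ) (1 : Qbar) with ht
  have htP : t ∈ X.posInt := X.single_mem_posInt _
  have hsplit : t = HahnSeries.single (Na : ℤ) (1 : Qbar) * HahnSeries.single (Nb : ℤ) 1 := by
    rw [ht, HahnSeries.single_mul_single, one_mul, Nat.cast_add]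
  have hB : t * (b : Ser) ∈ X.posInt := by
    rw [hsplit, mul_assoc]; exact mul_mem (X.single_mem_posInt _) hNb
  have hA : t * (b : Ser) * z ∈ X.posInt := by
    rw [mul_assoc, mul_comm (b : Ser), hab, hsplit, mul_right_comm]
    exact mul_mem hNa (X.single_mem_posInt _)
  set D := (t * (b : Ser)) ^ P.natDegree with hD
  have htb : t * (b : Ser) ≠ 0 := mul_ne_zero (HahnSeries.single_ne_zero one_ne_zero) hb
  refine X.mem_posInt_of_almost hzL (d := D) ?_ (pow_ne_zero _ htb) (pow_mem hB _) fun i => ?_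
  · refine pow_mem (mul_mem ?_ hbL) _
    intro n
    rw [ht, HahnSeries.coeff_single]
    split
    · exact one_mem _
    · exact zero_mem _
  · have e : z ^ i = Polynomial.eval₂ X.posInt.subtype z ((Polynomial.X ^ i) %ₘ P) := by
      conv_lhs => rw [← Polynomial.eval₂_X_pow X.posInt.subtype z (n := i),
        ← Polynomial.modByMonic_add_div ((Polynomial.X : Polynomial X.posInt) ^ i) P]
      rw [Polynomial.eval₂_add, Polynomial.eval₂_mul, hPz, zero_mul, add_zero]
    have hdeg : ((Polynomial.X ^ i) %ₘ P).natDegree ≤ P.natDegree :=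
      Polynomial.natDegree_modByMonic_le _ hP
    rw [e, Polynomial.eval₂_eq_sum_range' _ (Nat.lt_succ_iff.mpr hdeg), Finset.mul_sum]
    refine sum_mem fun l hl => ?_
    have hl' : l ≤ P.natDegree := Nat.lt_succ_iff.mp (Finset.mem_range.mp hl)
    rw [mul_left_comm, hD, show P.natDegree = P.natDegree - l + l by omega, pow_add,
      mul_assoc ((t * (b : Ser)) ^ (P.natDegree - l)), ← mul_pow]
    exact mul_mem (Subtype.coe_prop _) (mul_mem (pow_mem hB _) (pow_mem hA _))

end Ctx

end FLTAgent.CarayolSquare
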